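/-
S33, STEP 1 ("flat + residually ordinary ⇒ ordinary"), the count (helper6).

For a Galois representation `ρ` over a local ring `A` which is flat at `p ≠ 2` (frozen
`GaloisRepAdic.IsFlatAt`: every finite level `V / I V` is the group of points of a finite flat
group scheme over `ℤ_(p)`), the module of inertia coinvariants of every finite level is large:

  `|A / I| ≤ |(V / I V)_{I_p}|`,

as soon as this holds for the residual representation `V / 𝔪 V` (`|k| ≤ |ρ̄_{I_p}|`: `ρ̄` has a
non-zero unramified quotient).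

The proof is an induction on `|A / I|`: for `I ≠ ⊤` choose `a ∉ I` with `𝔪 a ⊆ I` and put
`J := I + (a)`; then `W := J V / I V ⊆ V / I V` is Galois stable, `W ≃ V / 𝔪 V` (`v ↦ a v`, `V` is
free) and `(V / I V) / W ≃ V / J V`; the inertia coinvariants are exact on Galois stable filtrations
of flat modules (`Etale/Intrinsic.index_augInertial_ge`), and their cardinality does not depend on
the Hopf order.
-/
import Mathlib
import Fermat.Agent.S56.Flat.Etale.Intrinsic
import Fermat.Agent.S19.Abs.FlatAt
import Fermat.Agent.S19.Base.OfModel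

set_option autoImplicit false
set_option linter.unusedSectionVars false
set_option linter.style.haveILetI false

open GaloisRep Fermat.Agent.S19.Abs Fermat.Agent.S19.Base
open Fermat.Agent.S56.Flat.Etale.QuotOrder Fermat.Agent.S56.Flat.Etale.Connected
  Fermat.Agent.S56.Flat.Etale.Inertial Fermat.Agent.S56.Flat.Etale.Intrinsic

namespace Fermat.Agent.S33.Ord.Count

/-! ### Transport of the inertia coinvariants along equivariant isomorphisms -/

section Transport

variable {p : ℕ} [Fact p.Prime] {M M' : Type} [AddCommGroup M] [AddCommGroup M']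
  {act : GQ → M → M} {act' : GQ → M' → M'}

theorem map_augInertial (e : M ≃+ M') (he : ∀ σ y, e (act σ y) = act' σ (e y)) :
    (augInertial p act).map e.toAddMonoidHom = augInertial p act' := by
  unfold augInertial
  rw [AddMonoidHom.map_closure]
  congr 1
  ext z
  constructor
  · rintro ⟨_, ⟨τ, y, hτ, rfl⟩, rfl⟩
    refine ⟨τ, e y, hτ, ?_⟩
    show e (act _ y - y) = _
    rw [map_sub, he]
  · rintro ⟨τ, y', hτ, rfl⟩
    refine ⟨act _ (e.symm y') - e.symm y', ⟨τ, e.symm y', hτ, rfl⟩, ?_⟩
    show e (act _ (e.symm y') - e.symm y') = _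
    rw [map_sub, he, AddEquiv.apply_symm_apply]

/-- the cardinality of the inertia coinvariants is invariant under equivariant isomorphisms -/
theorem index_augInertial_eq (e : M ≃+ M') (he : ∀ σ y, e (act σ y) = act' σ (e y)) :
    (augInertial p act).index = (augInertial p act').index := by
  rw [← map_augInertial e he]
  exact (AddSubgroup.index_map_equiv _ e).symm

end Transport

/-! ### Commutative algebra -/

section Ring

variable {A : Type} [CommRing A] [IsLocalRing A]

/-- a socle element of the finite local ring `A / I` -/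
theorem exists_socle (I : Ideal A) [Finite (A ⧸ I)] (hI : I ≠ ⊤) :
    ∃ a : A, a ∉ I ∧ ∀ m ∈ IsLocalRing.maximalIdeal A, m * a ∈ I := by
  classical
  haveI : Nontrivial (A ⧸ I) := Ideal.Quotient.nontrivial_iff.mpr hI
  haveI : IsLocalRing (A ⧸ I) :=
    IsLocalRing.of_surjective' (Ideal.Quotient.mk I) Ideal.Quotient.mk_surjective
  haveI : IsArtinianRing (A ⧸ I) := isArtinian_of_finite
  have hnil : IsNilpotent (IsLocalRing.maximalIdeal (A ⧸ I)) := by
    have h := IsArtinianRing.isNilpotent_jacobson_bot (R := A ⧸ I)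
    rwa [IsLocalRing.jacobson_eq_maximalIdeal ⊥ bot_ne_top] at h
  -- the least exponent
  have hex : ∃ n : ℕ, IsLocalRing.maximalIdeal (A ⧸ I) ^ n = ⊥ := hnil
  set n := Nat.find hex with hn
  have hn0 : n ≠ 0 := by
    intro h0
    have h1 := Nat.find_spec hex
    rw [← hn, h0, pow_zero, Ideal.one_eq_top] at h1
    exact top_ne_bot h1
  obtain ⟨n', hn'⟩ := Nat.exists_eq_succ_of_ne_zero hn0
  have hne : IsLocalRing.maximalIdeal (A ⧸ I) ^ n' ≠ ⊥ := by
    intro h
    have := Nat.find_min' hex h
    omega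
  obtain ⟨abar, habar, habar0⟩ := Submodule.exists_mem_ne_zero_of_ne_bot hne
  obtain ⟨a, rfl⟩ := Ideal.Quotient.mk_surjective abar
  refine ⟨a, fun ha => habar0 (Ideal.Quotient.eq_zero_iff_mem.mpr ha), fun m hm => ?_⟩
  rw [← Ideal.Quotient.eq_zero_iff_mem, map_mul]
  have hmbar : Ideal.Quotient.mk I m ∈ IsLocalRing.maximalIdeal (A ⧸ I) := by
    rw [IsLocalRing.mem_maximalIdeal, mem_nonunits_iff]
    intro hu
    have hm' : m ∈ nonunits A := (IsLocalRing.mem_maximalIdeal m).mp hm
    apply hm'
    obtain ⟨y, hy⟩ := Ideal.Quotient.mk_surjective (hu.unit⁻¹ : (A ⧸ I)ˣ).1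
    have h1 : Ideal.Quotient.mk I (m * y) = 1 := by
      rw [map_mul, hy]
      exact hu.mul_val_inv
    have h2 : m * y - 1 ∈ I := by
      rw [← Ideal.Quotient.eq_zero_iff_mem, map_sub, h1, map_one, sub_self]
    have h3 : m * y - 1 ∈ IsLocalRing.maximalIdeal A :=
      IsLocalRing.le_maximalIdeal hI h2
    have h4 : IsUnit (m * y) := by
      by_contra hcon
      have h5 : m * y ∈ IsLocalRing.maximalIdeal A := (IsLocalRing.mem_maximalIdeal _).mpr hcon
      have h6 : (1 : A) ∈ IsLocalRing.maximalIdeal A := by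
        have := (IsLocalRing.maximalIdeal A).sub_mem h5 h3
        rwa [sub_sub_cancel] at this
      exact (Ideal.ne_top_iff_one _).mp (IsLocalRing.maximalIdeal.isMaximal A).ne_top h6
    exact isUnit_of_mul_isUnit_left h4
  have h1 : Ideal.Quotient.mk I m * Ideal.Quotient.mk I a ∈
      IsLocalRing.maximalIdeal (A ⧸ I) ^ n := by
    rw [hn', pow_succ']
    exact Ideal.mul_mem_mul hmbar habar
  rw [Nat.find_spec hex] at h1
  exact h1

theorem finite_residueField (I : Ideal A) [Finite (A ⧸ I)] (hI : I ≠ ⊤) :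
    Finite (IsLocalRing.ResidueField A) :=
  Finite.of_surjective (Ideal.Quotient.factor (IsLocalRing.le_maximalIdeal hI))
    (Ideal.Quotient.factor_surjective (IsLocalRing.le_maximalIdeal hI))

/-- `|A / I| ≤ |k| · |A / (I + (a))|` when `𝔪 a ⊆ I` -/
theorem card_quot_le_mul (I : Ideal A) [Finite (A ⧸ I)] (hI : I ≠ ⊤) {a : A}
    (ha : ∀ m ∈ IsLocalRing.maximalIdeal A, m * a ∈ I) :
    Nat.card (A ⧸ I) ≤
      Nat.card (IsLocalRing.ResidueField A) * Nat.card (A ⧸ (I ⊔ Ideal.span {a})) := by
  classical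
  haveI := finite_residueField I hI
  -- the additive map `x ↦ [x a]`
  let g : A →+ (A ⧸ I) :=
    ((Ideal.Quotient.mk I : A →+* A ⧸ I) : A →+ A ⧸ I).comp (AddMonoidHom.mulRight a)
  have hg : ∀ x, g x = Ideal.Quotient.mk I (x * a) := fun x => rfl
  have hker : (IsLocalRing.maximalIdeal A).toAddSubgroup ≤ g.ker := by
    intro m hm
    rw [AddMonoidHom.mem_ker, hg]
    exact Ideal.Quotient.eq_zero_iff_mem.mpr (ha m hm)
  -- `|H| ≤ |k|`
  have h1 : Nat.card g.range ≤ Nat.card (IsLocalRing.ResidueField A) := by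
    have e1 : Nat.card g.range = g.ker.index := (AddSubgroup.index_ker g).symm
    have e2 : (IsLocalRing.maximalIdeal A).toAddSubgroup.index =
        Nat.card (IsLocalRing.ResidueField A) := AddSubgroup.index_eq_card _
    rw [e1, ← e2]
    have hfin : (IsLocalRing.maximalIdeal A).toAddSubgroup.index ≠ 0 := by
      rw [e2]
      exact Nat.card_pos.ne'
    exact Nat.le_of_dvd (Nat.pos_of_ne_zero hfin) (AddSubgroup.index_dvd_of_le hker)
  -- `H` is the ideal generated by `[a]`
  have hrange : g.range = ((Ideal.span {a}).map (Ideal.Quotient.mk I)).toAddSubgroup := by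
    ext y
    rw [AddMonoidHom.mem_range, Submodule.mem_toAddSubgroup, Ideal.map_span, Set.image_singleton,
      Ideal.mem_span_singleton']
    constructor
    · rintro ⟨x, rfl⟩
      exact ⟨Ideal.Quotient.mk I x, by rw [hg, map_mul]⟩
    · rintro ⟨c, rfl⟩
      obtain ⟨x, rfl⟩ := Ideal.Quotient.mk_surjective c
      exact ⟨x, by rw [hg, map_mul]⟩
  -- the index of `H`
  have h2 : g.range.index = Nat.card (A ⧸ (I ⊔ Ideal.span {a})) := by
    rw [hrange]
    have e3 : ((Ideal.span {a}).map (Ideal.Quotient.mk I)).toAddSubgroup.index =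
        Nat.card ((A ⧸ I) ⧸ (Ideal.span {a}).map (Ideal.Quotient.mk I)) :=
      AddSubgroup.index_eq_card _
    rw [e3]
    exact Nat.card_congr (DoubleQuot.quotQuotEquivQuotSup I (Ideal.span {a})).toEquiv
  calc Nat.card (A ⧸ I) = Nat.card g.range * g.range.index :=
        (AddSubgroup.card_mul_index g.range).symm
    _ ≤ Nat.card (IsLocalRing.ResidueField A) * Nat.card (A ⧸ (I ⊔ Ideal.span {a})) := by
        rw [h2]
        exact Nat.mul_le_mul_right _ h1

end Ring

/-! ### Free modules modulo an ideal -/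

section Free

variable {A : Type} [CommRing A] {V : Type} [AddCommGroup V] [Module A V] {ι : Type*}

theorem repr_mem_of_mem_smul_top (b : Module.Basis ι A V) (I : Ideal A) {x : V}
    (hx : x ∈ I • (⊤ : Submodule A V)) (i : ι) : b.repr x i ∈ I := by
  refine Submodule.smul_induction_on hx (fun r hr n _ => ?_) (fun x y hx hy => ?_)
  · rw [map_smul, Finsupp.smul_apply, smul_eq_mul]
    exact I.mul_mem_right _ hr
  · rw [map_add, Finsupp.add_apply]
    exact I.add_mem hx hy

theorem mem_smul_top_of_repr_mem (b : Module.Basis ι A V) (I : Ideal A) {x : V}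
    (h : ∀ i, b.repr x i ∈ I) : x ∈ I • (⊤ : Submodule A V) := by
  rw [← b.linearCombination_repr x, Finsupp.linearCombination_apply]
  exact Submodule.sum_mem _ fun i _ => Submodule.smul_mem_smul (h i) Submodule.mem_top

theorem map_mem_smul_top (f : V →ₗ[A] V) (J : Ideal A) {x : V}
    (hx : x ∈ J • (⊤ : Submodule A V)) : f x ∈ J • (⊤ : Submodule A V) := by
  refine Submodule.smul_induction_on hx (fun r hr n _ => ?_) (fun x y hx hy => ?_)
  · rw [map_smul]
    exact Submodule.smul_mem_smul hr Submodule.mem_top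
  · rw [map_add]
    exact Submodule.add_mem _ hx hy

end Free

/-! ### Surjective equivariant maps -/

section Surj

variable {p : ℕ} [Fact p.Prime] {M M' : Type} [AddCommGroup M] [AddCommGroup M']
  {act : GQ → M → M} {act' : GQ → M' → M'}

theorem map_augInertial_of_surjective (f : M →+ M') (hf : Function.Surjective f)
    (he : ∀ σ y, f (act σ y) = act' σ (f y)) :
    (augInertial p act).map f = augInertial p act' := by
  unfold augInertial
  rw [AddMonoidHom.map_closure]
  congr 1
  ext z
  constructor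
  · rintro ⟨_, ⟨τ, y, hτ, rfl⟩, rfl⟩
    refine ⟨τ, f y, hτ, ?_⟩
    rw [map_sub, he]
  · rintro ⟨τ, y', hτ, rfl⟩
    obtain ⟨y, rfl⟩ := hf y'
    exact ⟨act _ y - y, ⟨τ, y, hτ, rfl⟩, by rw [map_sub, he]⟩

/-- inertia coinvariants of a quotient are a quotient of the inertia coinvariants -/
theorem index_augInertial_le_of_surjective [Finite M] (f : M →+ M')
    (hf : Function.Surjective f) (he : ∀ σ y, f (act σ y) = act' σ (f y)) :
    (augInertial p act').index ≤ (augInertial p act).index := by
  rw [← map_augInertial_of_surjective f hf he]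
  exact Nat.le_of_dvd (Nat.pos_of_ne_zero AddSubgroup.index_ne_zero_of_finite)
    (AddSubgroup.index_map_dvd _ hf)

end Surj

/-! ### The step -/

section Step

variable {A : Type} [CommRing A] [IsLocalRing A] (ρ : GaloisRepAdic A) {p : ℕ} [Fact p.Prime]

/-- every element of a finite level is killed by a power of `p` (`p` is not a unit of `A`) -/
theorem exists_ppow_smul_eq_zero (hpA : (p : A) ∈ IsLocalRing.maximalIdeal A) (I : Ideal A)
    [Finite (A ⧸ I)] (y : ρ.V ⧸ (I • (⊤ : Submodule A ρ.V))) : ∃ m : ℕ, p ^ m • y = 0 := by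
  haveI := finite_level ρ I
  have key : ∃ m : ℕ, ((p : A) ^ m) • y = 0 := by
    obtain ⟨m, m', hne, heq⟩ :=
      Finite.exists_ne_map_eq_of_infinite (fun m : ℕ => ((p : A) ^ m) • y)
    wlog hlt : m < m' generalizing m m'
    · exact this m' m hne.symm heq.symm (lt_of_le_of_ne (not_lt.mp hlt) hne.symm)
    refine ⟨m, ?_⟩
    obtain ⟨d, rfl⟩ := Nat.exists_eq_add_of_lt hlt
    have hz : ((p : A) ^ m) • y = ((p : A) ^ (d + 1)) • (((p : A) ^ m) • y) := by
      rw [smul_smul, ← pow_add]
      have : d + 1 + m = m + d + 1 := by ring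
      rw [this]
      exact heq
    have hmem : (p : A) ^ (d + 1) ∈ nonunits A := by
      rw [← IsLocalRing.mem_maximalIdeal, pow_succ]
      exact Ideal.mul_mem_left _ _ hpA
    have hu : IsUnit (1 - (p : A) ^ (d + 1)) :=
      IsLocalRing.isUnit_one_sub_self_of_mem_nonunits _ hmem
    have h0 : (1 - (p : A) ^ (d + 1)) • (((p : A) ^ m) • y) = 0 := by
      rw [sub_smul, one_smul, ← hz, sub_self]
    have h1 := congrArg (fun t => ((hu.unit⁻¹ : Aˣ) : A) • t) h0
    simp only [smul_zero] at h1
    rwa [smul_smul, IsUnit.val_inv_mul, one_smul] at h1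
  obtain ⟨m, hm⟩ := key
  refine ⟨m, ?_⟩
  rw [← Nat.cast_smul_eq_nsmul A, Nat.cast_pow]
  exact hm

/-- **the step of the count**: `|ρ̄_{I_p}| · |(V/JV)_{I_p}| ≤ |(V/IV)_{I_p}|` for `J = I + (a)`,
`a ∉ I`, `𝔪 a ⊆ I`. -/
theorem index_mul_index_le (hp2 : p ≠ 2) (hpA : (p : A) ∈ IsLocalRing.maximalIdeal A)
    (hflat : ρ.IsFlatAt p) (I : Ideal A) [Finite (A ⧸ I)] {a : A} (ha : a ∉ I)
    (ham : ∀ m ∈ IsLocalRing.maximalIdeal A, m * a ∈ I) :
    (augInertial p (levelAct ρ (IsLocalRing.maximalIdeal A))).index *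
        (augInertial p (levelAct ρ (I ⊔ Ideal.span {a}))).index ≤
      (augInertial p (levelAct ρ I)).index := by
  classical
  haveI := finite_level ρ I
  obtain ⟨Hs, hHs⟩ := hasHopfOrder_of_hasHopfModel (hflat.2 I inferInstance)
  have hact := isGalAction_levelAct ρ I
  have hpM := exists_ppow_smul_eq_zero ρ hpA I
  -- the subgroup `W = J V / I V`
  let W : AddSubgroup (ρ.V ⧸ (I • (⊤ : Submodule A ρ.V))) :=
    (((I ⊔ Ideal.span {a}) • (⊤ : Submodule A ρ.V)).map
      (Submodule.mkQ (I • (⊤ : Submodule A ρ.V)))).toAddSubgroup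
  have hWmem : ∀ y, y ∈ W ↔ ∃ x ∈ (I ⊔ Ideal.span {a}) • (⊤ : Submodule A ρ.V),
      (Submodule.Quotient.mk x : ρ.V ⧸ (I • (⊤ : Submodule A ρ.V))) = y := by
    intro y
    exact Submodule.mem_map
  have hW : ∀ σ, ∀ y ∈ W, levelAct ρ I σ y ∈ W := by
    intro σ y hy
    obtain ⟨x, hx, rfl⟩ := (hWmem y).mp hy
    exact (hWmem _).mpr ⟨ρ.ρ σ x, map_mem_smul_top (ρ.ρ σ) _ hx, (levelAct_mk ρ I σ x).symm⟩
  -- the action on the quotient
  let actQ : GQ → (ρ.V ⧸ (I • (⊤ : Submodule A ρ.V))) ⧸ W →
      (ρ.V ⧸ (I • (⊤ : Submodule A ρ.V))) ⧸ W :=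
    fun σ => QuotientAddGroup.map W W (ρ.levelAction I σ).toAddMonoidHom (fun y hy => hW σ y hy)
  have hQ : ∀ σ y, actQ σ (QuotientAddGroup.mk y) = QuotientAddGroup.mk (levelAct ρ I σ y) :=
    fun σ y => rfl
  have key := index_augInertial_ge hp2 hact hHs hpM W hW actQ hQ
  -- the quotient `(V/IV)/W` maps onto `V/JV`
  have h2 : (augInertial p (levelAct ρ (I ⊔ Ideal.span {a}))).index ≤
      (augInertial p actQ).index := by
    have hIJ : I • (⊤ : Submodule A ρ.V) ≤ (I ⊔ Ideal.span {a}) • (⊤ : Submodule A ρ.V) :=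
      Submodule.smul_mono le_sup_left le_rfl
    let f : (ρ.V ⧸ (I • (⊤ : Submodule A ρ.V))) ⧸ W →+
        (ρ.V ⧸ ((I ⊔ Ideal.span {a}) • (⊤ : Submodule A ρ.V))) :=
      QuotientAddGroup.lift W (Submodule.factor hIJ).toAddMonoidHom (by
        intro y hy
        obtain ⟨x, hx, rfl⟩ := (hWmem y).mp hy
        show Submodule.factor hIJ (Submodule.Quotient.mk x) = 0
        rw [← Submodule.mkQ_apply, Submodule.factor_mk, Submodule.mkQ_apply]
        exact (Submodule.Quotient.mk_eq_zero _).mpr hx)
    refine index_augInertial_le_of_surjective f ?_ ?_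
    · intro z
      obtain ⟨v, rfl⟩ := Submodule.Quotient.mk_surjective _ z
      exact ⟨QuotientAddGroup.mk (Submodule.Quotient.mk v), rfl⟩
    · intro σ q
      obtain ⟨y, rfl⟩ := QuotientAddGroup.mk_surjective q
      obtain ⟨v, rfl⟩ := Submodule.Quotient.mk_surjective _ y
      rfl
  -- the subgroup `W` is `V/𝔪V`
  have h1 : (augInertial p (levelAct ρ (IsLocalRing.maximalIdeal A))).index =
      (augInertial p (subAct (levelAct ρ I) W hW)).index := by
    have hle : IsLocalRing.maximalIdeal A • (⊤ : Submodule A ρ.V) ≤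
        (I • (⊤ : Submodule A ρ.V)).comap (a • (LinearMap.id : ρ.V →ₗ[A] ρ.V)) := by
      intro x hx
      rw [Submodule.mem_comap]
      show a • x ∈ I • (⊤ : Submodule A ρ.V)
      refine Submodule.smul_induction_on hx (fun r hr n _ => ?_) (fun x y hx hy => ?_)
      · rw [smul_smul, mul_comm]
        exact Submodule.smul_mem_smul (ham r hr) Submodule.mem_top
      · rw [smul_add]
        exact Submodule.add_mem _ hx hy
    let g₀ : (ρ.V ⧸ (IsLocalRing.maximalIdeal A • (⊤ : Submodule A ρ.V))) →ₗ[A]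
        (ρ.V ⧸ (I • (⊤ : Submodule A ρ.V))) :=
      Submodule.mapQ _ _ (a • (LinearMap.id : ρ.V →ₗ[A] ρ.V)) hle
    have hg₀ : ∀ v : ρ.V, g₀ (Submodule.Quotient.mk v) = Submodule.Quotient.mk (a • v) :=
      fun v => rfl
    have hg₀W : ∀ y, g₀ y ∈ W := by
      intro y
      obtain ⟨v, rfl⟩ := Submodule.Quotient.mk_surjective _ y
      exact (hWmem _).mpr ⟨a • v, Submodule.smul_mem_smul
        (Ideal.mem_sup_right (Ideal.mem_span_singleton_self a)) Submodule.mem_top, (hg₀ v).symm⟩
    let g : (ρ.V ⧸ (IsLocalRing.maximalIdeal A • (⊤ : Submodule A ρ.V))) →+ W :=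
      g₀.toAddMonoidHom.codRestrict W hg₀W
    have hginj : Function.Injective g := by
      rw [injective_iff_map_eq_zero]
      intro y hy
      obtain ⟨v, rfl⟩ := Submodule.Quotient.mk_surjective _ y
      have h0 : (Submodule.Quotient.mk (a • v) : ρ.V ⧸ (I • (⊤ : Submodule A ρ.V))) = 0 :=
        congrArg Subtype.val hy
      rw [Submodule.Quotient.mk_eq_zero] at h0 ⊢
      let b := Module.Free.chooseBasis A ρ.V
      refine mem_smul_top_of_repr_mem b _ fun i => ?_
      have hi := repr_mem_of_mem_smul_top b I h0 i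
      rw [map_smul, Finsupp.smul_apply, smul_eq_mul] at hi
      by_contra hcon
      have hu : IsUnit (b.repr v i) := by
        by_contra hnu
        exact hcon ((IsLocalRing.mem_maximalIdeal _).mpr hnu)
      apply ha
      have h3 := I.mul_mem_left ((hu.unit⁻¹ : Aˣ) : A) hi
      have h4 : ((hu.unit⁻¹ : Aˣ) : A) * (a * b.repr v i) = a := by
        rw [mul_comm a, ← mul_assoc, IsUnit.val_inv_mul, one_mul]
      rwa [h4] at h3
    have hgsurj : Function.Surjective g := by
      rintro ⟨w, hw⟩
      obtain ⟨x, hx, rfl⟩ := (hWmem w).mp hw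
      rw [Submodule.sup_smul, Submodule.mem_sup] at hx
      obtain ⟨x₁, hx₁, x₂, hx₂, rfl⟩ := hx
      rw [Submodule.ideal_span_singleton_smul] at hx₂
      obtain ⟨v, -, rfl⟩ := hx₂
      refine ⟨Submodule.Quotient.mk v, Subtype.ext ?_⟩
      show (Submodule.Quotient.mk (a • v) : ρ.V ⧸ (I • (⊤ : Submodule A ρ.V))) =
        Submodule.Quotient.mk (x₁ + a • v)
      rw [Submodule.Quotient.eq]
      have : a • v - (x₁ + a • v) = -x₁ := by abel
      rw [this]
      exact Submodule.neg_mem _ hx₁
    refine index_augInertial_eq (AddEquiv.ofBijective g ⟨hginj, hgsurj⟩) ?_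
    intro σ y
    obtain ⟨v, rfl⟩ := Submodule.Quotient.mk_surjective _ y
    apply Subtype.ext
    show g₀ (levelAct ρ _ σ (Submodule.Quotient.mk v)) =
      levelAct ρ I σ (g₀ (Submodule.Quotient.mk v))
    rw [levelAct_mk, hg₀, hg₀, levelAct_mk, map_smul]
  calc (augInertial p (levelAct ρ (IsLocalRing.maximalIdeal A))).index *
        (augInertial p (levelAct ρ (I ⊔ Ideal.span {a}))).index
      ≤ (augInertial p (subAct (levelAct ρ I) W hW)).index * (augInertial p actQ).index := by
        rw [h1]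
        exact Nat.mul_le_mul_left _ h2
    _ ≤ _ := key

/-- **the count of STEP 1**: for a representation which is flat at `p ≠ 2`, the inertia
coinvariants of every finite level `V / I V` have at least `|A / I|` elements, as soon as this holds
for the residual representation. -/
theorem card_quot_le_index_augInertial (hp2 : p ≠ 2)
    (hpA : (p : A) ∈ IsLocalRing.maximalIdeal A) (hflat : ρ.IsFlatAt p)
    (hk : Nat.card (IsLocalRing.ResidueField A) ≤
      (augInertial p (levelAct ρ (IsLocalRing.maximalIdeal A))).index)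
    (I : Ideal A) [Finite (A ⧸ I)] :
    Nat.card (A ⧸ I) ≤ (augInertial p (levelAct ρ I)).index := by
  classical
  suffices H : ∀ n : ℕ, ∀ (I : Ideal A) [Finite (A ⧸ I)], Nat.card (A ⧸ I) = n →
      Nat.card (A ⧸ I) ≤ (augInertial p (levelAct ρ I)).index from H _ I rfl
  intro n
  induction n using Nat.strong_induction_on with
  | _ n ih =>
    intro I _ hn
    by_cases hI : I = ⊤
    · subst hI
      haveI := finite_level ρ (⊤ : Ideal A)
      haveI : Subsingleton (A ⧸ (⊤ : Ideal A)) := Ideal.Quotient.subsingleton_iff.mpr rfl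
      rw [Nat.card_of_subsingleton (0 : A ⧸ (⊤ : Ideal A))]
      exact Nat.one_le_iff_ne_zero.mpr AddSubgroup.index_ne_zero_of_finite
    · obtain ⟨a, ha, ham⟩ := exists_socle I hI
      haveI : Finite (A ⧸ (I ⊔ Ideal.span {a})) :=
        Finite.of_surjective (Ideal.Quotient.factor (le_sup_left : I ≤ I ⊔ Ideal.span {a}))
          (Ideal.Quotient.factor_surjective _)
      have hlt : Nat.card (A ⧸ (I ⊔ Ideal.span {a})) < n := by
        rw [← hn]
        haveI : Fintype (A ⧸ I) := Fintype.ofFinite _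
        haveI : Fintype (A ⧸ (I ⊔ Ideal.span {a})) := Fintype.ofFinite _
        rw [Nat.card_eq_fintype_card, Nat.card_eq_fintype_card]
        refine Fintype.card_lt_of_surjective_not_injective
          (Ideal.Quotient.factor (le_sup_left : I ≤ I ⊔ Ideal.span {a}))
          (Ideal.Quotient.factor_surjective _) ?_
        intro hinj
        apply ha
        rw [← Ideal.Quotient.eq_zero_iff_mem]
        apply hinj
        rw [map_zero, Ideal.Quotient.factor_mk, Ideal.Quotient.eq_zero_iff_mem]
        exact Ideal.mem_sup_right (Ideal.mem_span_singleton_self a)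
      have h1 := ih _ hlt (I ⊔ Ideal.span {a}) rfl
      calc Nat.card (A ⧸ I)
          ≤ Nat.card (IsLocalRing.ResidueField A) *
              Nat.card (A ⧸ (I ⊔ Ideal.span {a})) := card_quot_le_mul I hI ham
        _ ≤ (augInertial p (levelAct ρ (IsLocalRing.maximalIdeal A))).index *
              (augInertial p (levelAct ρ (I ⊔ Ideal.span {a}))).index := Nat.mul_le_mul hk h1
        _ ≤ _ := index_mul_index_le ρ hp2 hpA hflat I ha ham

end Step

end Fermat.Agent.S33.Ord.Count
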