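/-
S33, STEP 1 ("flat + residually ordinary ⇒ ordinary"), the count in the vocabulary of the frozen
inertia groups (helper6).

`Ord/Count.lean` counts the coinvariants of the inertial automorphisms of `ℚ̄_q` on the finite levels
`V / I V`.  Here:

* `card_residueField_le` : the residual input `|k| ≤ |ρ̄_{I_q}|` of the count, from a line of
  `ρ.residual` with trivial inertia action on the quotient (in particular from
  `(ofResidualGaloisRep ρ.residual).IsOrdinaryAt q`);
* `index_augInertial_le_card_quot` : `|(V / I V)_{I_q}| ≤ |V / (augSub + I V)|`, with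
  `augSub ρ (primeLocalPlace q)` the `A`-submodule of `V` generated by the `σ v - v`, `σ` in the frozen
  inertia group at `primeLocalPlace q`;
* `card_quot_le_card_quot_augSub` : **`|A / I| ≤ |V / (augSub + I V)|`** for every ideal `I` of finite
  index, for `ρ` flat at `q ≠ 2` and residually ordinary.
-/
import Mathlib
import Fermat.Agent.S33.Ord.Count
import Fermat.Agent.S56.Flat.PThree

set_option autoImplicit false
set_option linter.unusedSectionVars false
set_option linter.style.haveILetI false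

open GaloisRep Fermat.Agent.S19.Abs Fermat.Agent.S19.Base
open Fermat.Agent.S56.Flat.Etale.QuotOrder Fermat.Agent.S56.Flat.Etale.Connected
  Fermat.Agent.S56.Flat.Etale.Inertial Fermat.Agent.S56.Flat.Etale.Intrinsic
open Fermat.Agent.S56.Places.Dict Fermat.Agent.S56.Flat.PThree Fermat.Agent.S56.Flat.PThree.OrdLift
open Fermat.Agent.S33.Ord.Count ExtCitation

namespace Fermat.Agent.S33.Ord.CountAug

variable {A : Type} [CommRing A] [IsLocalRing A] (ρ : GaloisRepAdic A) (q : Nat.Primes)

/-! ### From the inertial automorphisms to the frozen inertia group -/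

/-- `|(V / I V)_{I_q}| ≤ |V / (augSub + I V)|` -/
theorem index_augInertial_le_card_quot (I : Ideal A) [Finite (A ⧸ I)] :
    (augInertial (q : ℕ) (levelAct ρ I)).index ≤
      Nat.card (ρ.V ⧸ (augSub ρ (primeLocalPlace q) ⊔ I • (⊤ : Submodule A ρ.V))) := by
  classical
  haveI := finite_level ρ I
  let mk : ρ.V →+ (ρ.V ⧸ (I • (⊤ : Submodule A ρ.V))) :=
    (Submodule.mkQ (I • (⊤ : Submodule A ρ.V))).toAddMonoidHom
  have hmk : ∀ v : ρ.V, mk v = Submodule.Quotient.mk v := fun v => rfl
  have hsurj : Function.Surjective mk := Submodule.Quotient.mk_surjective _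
  have hle : (augSub ρ (primeLocalPlace q) ⊔ I • (⊤ : Submodule A ρ.V)).toAddSubgroup ≤
      (augInertial (q : ℕ) (levelAct ρ I)).comap mk := by
    intro x hx
    rw [Submodule.mem_toAddSubgroup, Submodule.mem_sup] at hx
    obtain ⟨x₁, hx₁, x₂, hx₂, rfl⟩ := hx
    rw [AddSubgroup.mem_comap, map_add]
    refine AddSubgroup.add_mem _ ?_ ?_
    · induction hx₁ using Submodule.closure_induction with
      | zero => rw [map_zero]; exact AddSubgroup.zero_mem _
      | add x y _ _ hx hy => rw [map_add]; exact AddSubgroup.add_mem _ hx hy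
      | smul_mem r x hx =>
        obtain ⟨σ, hσ, v, rfl⟩ := hx
        obtain ⟨τ, hτ, rfl⟩ := exists_isInertial_of_mem q hσ
        have h1 : r • (ρ.ρ (localGaloisToGlobal (q : ℕ) τ) v - v) =
            ρ.ρ (localGaloisToGlobal (q : ℕ) τ) (r • v) - r • v := by
          rw [smul_sub, map_smul]
        rw [h1, map_sub, hmk, hmk, ← levelAct_mk]
        exact sub_mem_augInertial hτ _
    · rw [hmk, (Submodule.Quotient.mk_eq_zero _).mpr hx₂]
      exact AddSubgroup.zero_mem _
  have h1 : ((augInertial (q : ℕ) (levelAct ρ I)).comap mk).index =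
      (augInertial (q : ℕ) (levelAct ρ I)).index :=
    AddSubgroup.index_comap_of_surjective _ hsurj
  have h2 : ((augInertial (q : ℕ) (levelAct ρ I)).comap mk).index ≠ 0 := by
    rw [h1]
    exact AddSubgroup.index_ne_zero_of_finite
  have h3 : (augSub ρ (primeLocalPlace q) ⊔ I • (⊤ : Submodule A ρ.V)).toAddSubgroup.index =
      Nat.card (ρ.V ⧸ (augSub ρ (primeLocalPlace q) ⊔ I • (⊤ : Submodule A ρ.V))) :=
    AddSubgroup.index_eq_card _
  rw [← h1, ← h3]
  have hdvd := AddSubgroup.index_dvd_of_le hle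
  have hne : (augSub ρ (primeLocalPlace q) ⊔
      I • (⊤ : Submodule A ρ.V)).toAddSubgroup.index ≠ 0 := by
    have h4 : (I • (⊤ : Submodule A ρ.V)).toAddSubgroup ≤
        (augSub ρ (primeLocalPlace q) ⊔ I • (⊤ : Submodule A ρ.V)).toAddSubgroup :=
      fun x hx => (le_sup_right : I • (⊤ : Submodule A ρ.V) ≤ _) hx
    have h5 : (I • (⊤ : Submodule A ρ.V)).toAddSubgroup.index ≠ 0 := by
      have h7 : (I • (⊤ : Submodule A ρ.V)).toAddSubgroup.index =
          Nat.card (ρ.V ⧸ (I • (⊤ : Submodule A ρ.V))) := AddSubgroup.index_eq_card _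
      rw [h7]
      exact Nat.card_pos.ne'
    intro h0
    have h6 := AddSubgroup.index_dvd_of_le h4
    rw [h0, zero_dvd_iff] at h6
    exact h5 h6
  exact Nat.le_of_dvd (Nat.pos_of_ne_zero hne) hdvd

/-! ### The residual input -/

open TensorProduct in
/-- every element of `k ⊗ V` is a pure tensor `1 ⊗ v` (`A → k` is onto) -/
theorem exists_one_tmul (w : IsLocalRing.ResidueField A ⊗[A] ρ.V) :
    ∃ v : ρ.V, w = (1 : IsLocalRing.ResidueField A) ⊗ₜ[A] v := by
  induction w using TensorProduct.induction_on with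
  | zero => exact ⟨0, (TensorProduct.tmul_zero _ _).symm⟩
  | tmul c v =>
    obtain ⟨a, rfl⟩ := IsLocalRing.residue_surjective c
    refine ⟨a • v, ?_⟩
    rw [TensorProduct.tmul_smul, TensorProduct.smul_tmul', Algebra.smul_def, mul_one]
    rfl
  | add x y hx hy =>
    obtain ⟨v, rfl⟩ := hx
    obtain ⟨v', rfl⟩ := hy
    exact ⟨v + v', (TensorProduct.tmul_add _ _ _).symm⟩

open TensorProduct in
/-- **the residual input of the count**: a line of `ρ̄` with trivial inertia action on the quotient
gives `|k| ≤ |ρ̄_{I_q}|`. -/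
theorem card_residueField_le (hfin : Finite (IsLocalRing.ResidueField A))
    (b : Module.Basis (Fin 2) (IsLocalRing.ResidueField A) ρ.residual.V)
    (hI : ∀ σ ∈ (primeLocalPlace q).inertiaSubgroupIn ℚ, ∀ v : ρ.residual.V,
      ρ.residual.ρ σ v - v ∈ Submodule.span (IsLocalRing.ResidueField A) {b 0}) :
    Nat.card (IsLocalRing.ResidueField A) ≤
      (augInertial (q : ℕ) (levelAct ρ (IsLocalRing.maximalIdeal A))).index := by
  classical
  haveI : Finite (A ⧸ IsLocalRing.maximalIdeal A) := hfin
  haveI := finite_level ρ (IsLocalRing.maximalIdeal A)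
  let b' : Module.Basis (Fin 2) (IsLocalRing.ResidueField A)
      (IsLocalRing.ResidueField A ⊗[A] ρ.V) := b
  let f : ρ.V →ₗ[A] IsLocalRing.ResidueField A :=
    ((b'.coord 1).restrictScalars A).comp (TensorProduct.mk A (IsLocalRing.ResidueField A) ρ.V 1)
  have hf : ∀ v : ρ.V, f v = b'.coord 1 ((1 : IsLocalRing.ResidueField A) ⊗ₜ[A] v) := fun v => rfl
  have hker : IsLocalRing.maximalIdeal A • (⊤ : Submodule A ρ.V) ≤ LinearMap.ker f := by
    rw [Submodule.smul_le]
    intro r hr n _
    rw [LinearMap.mem_ker, map_smul, Algebra.smul_def, IsLocalRing.ResidueField.algebraMap_eq,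
      (IsLocalRing.residue_eq_zero_iff r).mpr hr, zero_mul]
  let g : (ρ.V ⧸ (IsLocalRing.maximalIdeal A • (⊤ : Submodule A ρ.V))) →ₗ[A]
      IsLocalRing.ResidueField A := Submodule.liftQ _ f hker
  have hg : ∀ v : ρ.V, g (Submodule.Quotient.mk v) = f v := fun v => rfl
  have hgsurj : Function.Surjective g := by
    intro c
    obtain ⟨v, hv⟩ := exists_one_tmul ρ (c • b' 1)
    refine ⟨Submodule.Quotient.mk v, ?_⟩
    rw [hg, hf, ← hv, map_smul, Module.Basis.coord_apply, Module.Basis.repr_self,
      Finsupp.single_eq_same, smul_eq_mul, mul_one]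
  have hle : augInertial (q : ℕ) (levelAct ρ (IsLocalRing.maximalIdeal A)) ≤
      g.toAddMonoidHom.ker := by
    unfold augInertial
    rw [AddSubgroup.closure_le]
    rintro _ ⟨τ, y, hτ, rfl⟩
    obtain ⟨v, rfl⟩ := Submodule.Quotient.mk_surjective _ y
    rw [SetLike.mem_coe, AddMonoidHom.mem_ker, levelAct_mk]
    show g (Submodule.Quotient.mk _ - Submodule.Quotient.mk v) = 0
    rw [map_sub, hg, hg, hf, hf, ← map_sub]
    have h1 := hI _ (mem_inertia_of_isInertial q hτ) ((1 : IsLocalRing.ResidueField A) ⊗ₜ[A] v)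
    exact (coord_one_eq_zero_iff b _).mpr h1
  have h1 : g.toAddMonoidHom.ker.index = Nat.card (IsLocalRing.ResidueField A) := by
    rw [AddSubgroup.index_ker]
    have : g.toAddMonoidHom.range = ⊤ := AddMonoidHom.range_eq_top.mpr hgsurj
    rw [this]
    exact Nat.card_congr (AddSubgroup.topEquiv).toEquiv
  rw [← h1]
  exact Nat.le_of_dvd (Nat.pos_of_ne_zero AddSubgroup.index_ne_zero_of_finite)
    (AddSubgroup.index_dvd_of_le hle)

/-! ### The count -/

/-- **STEP 1, the count**: for `ρ` flat at `q ≠ 2` and residually ordinary at `q`, the coinvariants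
of the frozen inertia group at `primeLocalPlace q` on every finite level `V / I V` have at least
`|A / I|` elements. -/
theorem card_quot_le_card_quot_augSub (hq2 : (q : ℕ) ≠ 2)
    (hqA : ((q : ℕ) : A) ∈ IsLocalRing.maximalIdeal A) (hflat : ρ.IsFlatAt (q : ℕ))
    (hres : (GaloisRepAdic.ofResidualGaloisRep ρ.residual).IsOrdinaryAt (q : ℕ))
    (I : Ideal A) [Finite (A ⧸ I)] :
    Nat.card (A ⧸ I) ≤
      Nat.card (ρ.V ⧸ (augSub ρ (primeLocalPlace q) ⊔ I • (⊤ : Submodule A ρ.V))) := by
  obtain ⟨L, ⟨b, rfl⟩, -, hI⟩ := hres (primeLocalPlace q) (liesOverPrime_primeLocalPlace q)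
  have hk := card_residueField_le ρ q hflat.1 b hI
  exact (card_quot_le_index_augInertial ρ hq2 hqA hflat hk I).trans
    (index_augInertial_le_card_quot ρ q I)

end Fermat.Agent.S33.Ord.CountAug
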