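/-
S33, STEP 1 ("flat + residually ordinary ⇒ ordinary"), LEVELWISE form (helper6).

For a representation `ρ` over a local ring `A`, an ideal `I` of finite index such that all the levels
`V / J V`, `I ≤ J`, carry Hopf orders at `q ≠ 2`, `ρ̄` ordinary at `q`, and an element `σ₀` of the
inertia group at `primeLocalPlace q` with `det ρ σ₀ - 1` a unit:

  `Ω(τ, σ') v := (ρ τ - det ρ τ)(ρ σ' - 1) v ∈ I V`   for all `P | q`, `σ', τ ∈ I_P`, `v ∈ V`

(`omega_apply_mem`).  No base change: the count of `Ord/Count.lean` only visits the ideals `J ⊇ I` and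
`𝔪`, so it runs with Hopf orders on these levels (`card_quot_le_index_augInertial_of_le`); then
`L + I V = A b₀ + I V` for `L = augSub ρ (primeLocalPlace q)` and a basis `b` with `b₀ ∈ L`
(`repr_one_mem_of_mem_augSub`), every `τ ∈ I_{P₀}` is upper triangular unipotent-on-the-quotient
modulo `I` in the basis `b`, and the other places over `q` are conjugate to `primeLocalPlace q`.
-/
import Mathlib
import Fermat.Agent.S33.Ord.CountAug

set_option autoImplicit false
set_option linter.unusedSectionVars false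
set_option linter.style.haveILetI false

open GaloisRep Fermat.Agent.S19.Abs Fermat.Agent.S19.Base
open Fermat.Agent.S56.Flat.Etale.QuotOrder Fermat.Agent.S56.Flat.Etale.Connected
  Fermat.Agent.S56.Flat.Etale.Inertial Fermat.Agent.S56.Flat.Etale.Intrinsic
open Fermat.Agent.S56.Places.Dict Fermat.Agent.S56.Flat.PThree Fermat.Agent.S56.Flat.PThree.OrdLift
open Fermat.Agent.S33.Ord.Count Fermat.Agent.S33.Ord.CountAug ExtCitation
open Fermat.Agent.S55.InertiaConj
open scoped Pointwise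

namespace Fermat.Agent.S33.Ord.Levelwise

local notation "Qbar" => AlgebraicClosure ℚ

/-! ### The count with Hopf orders on the levels above `I` only -/

section Count

variable {A : Type} [CommRing A] [IsLocalRing A] (ρ : GaloisRepAdic A) {p : ℕ} [Fact p.Prime]

/-- **the step of the count** (Hopf order on the level `I` only): `|ρ̄_{I_p}| · |(V/JV)_{I_p}| ≤ |(V/IV)_{I_p}|` for `J = I + (a)`,
`a ∉ I`, `𝔪 a ⊆ I`. -/
theorem index_mul_index_le_of_hasHopfOrder (hp2 : p ≠ 2)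
    (hpA : (p : A) ∈ IsLocalRing.maximalIdeal A) (I : Ideal A) [Finite (A ⧸ I)]
    (hH : HasHopfOrder p (levelAct ρ I)) {a : A} (ha : a ∉ I)
    (ham : ∀ m ∈ IsLocalRing.maximalIdeal A, m * a ∈ I) :
    (augInertial p (levelAct ρ (IsLocalRing.maximalIdeal A))).index *
        (augInertial p (levelAct ρ (I ⊔ Ideal.span {a}))).index ≤
      (augInertial p (levelAct ρ I)).index := by
  classical
  haveI := finite_level ρ I
  obtain ⟨Hs, hHs⟩ := hH
  have hact := isGalAction_levelAct ρ I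
  have hpM := exists_ppow_smul_eq_zero ρ hpA I
  -- the subgroup `W = J V / I V`
  let W : AddSubgroup (ρ.V ⧸ (I • (⊤ : Submodule A ρ.V))) :=
    (((I ⊔ Ideal.span {a}) • (⊤ : Submodule A ρ.V)).map
      (Submodule.mkQ (I • (⊤ : Submodule A ρ.V)))).toAddSubgroup
  have hWmem : ∀ y, y ∈ W ↔ ∃ x ∈ (I ⊔ Ideal.span {a}) • (⊤ : Submodule A ρ.V),
      (Submodule.Quotient.mk x : ρ.V ⧸ (I • (⊤ : Submodule A ρ.V))) = y := by
    intro y
    exact Submodule.mem_map
  have hW : ∀ σ, ∀ y ∈ W, levelAct ρ I σ y ∈ W := by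
    intro σ y hy
    obtain ⟨x, hx, rfl⟩ := (hWmem y).mp hy
    exact (hWmem _).mpr ⟨ρ.ρ σ x, map_mem_smul_top (ρ.ρ σ) _ hx, (levelAct_mk ρ I σ x).symm⟩
  -- the action on the quotient
  let actQ : GQ → (ρ.V ⧸ (I • (⊤ : Submodule A ρ.V))) ⧸ W →
      (ρ.V ⧸ (I • (⊤ : Submodule A ρ.V))) ⧸ W :=
    fun σ => QuotientAddGroup.map W W (ρ.levelAction I σ).toAddMonoidHom (fun y hy => hW σ y hy)
  have hQ : ∀ σ y, actQ σ (QuotientAddGroup.mk y) = QuotientAddGroup.mk (levelAct ρ I σ y) :=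
    fun σ y => rfl
  have key := index_augInertial_ge hp2 hact hHs hpM W hW actQ hQ
  -- the quotient `(V/IV)/W` maps onto `V/JV`
  have h2 : (augInertial p (levelAct ρ (I ⊔ Ideal.span {a}))).index ≤
      (augInertial p actQ).index := by
    have hIJ : I • (⊤ : Submodule A ρ.V) ≤ (I ⊔ Ideal.span {a}) • (⊤ : Submodule A ρ.V) :=
      Submodule.smul_mono le_sup_left le_rfl
    let f : (ρ.V ⧸ (I • (⊤ : Submodule A ρ.V))) ⧸ W →+
        (ρ.V ⧸ ((I ⊔ Ideal.span {a}) • (⊤ : Submodule A ρ.V))) :=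
      QuotientAddGroup.lift W (Submodule.factor hIJ).toAddMonoidHom (by
        intro y hy
        obtain ⟨x, hx, rfl⟩ := (hWmem y).mp hy
        show Submodule.factor hIJ (Submodule.Quotient.mk x) = 0
        rw [← Submodule.mkQ_apply, Submodule.factor_mk, Submodule.mkQ_apply]
        exact (Submodule.Quotient.mk_eq_zero _).mpr hx)
    refine index_augInertial_le_of_surjective f ?_ ?_
    · intro z
      obtain ⟨v, rfl⟩ := Submodule.Quotient.mk_surjective _ z
      exact ⟨QuotientAddGroup.mk (Submodule.Quotient.mk v), rfl⟩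
    · intro σ q
      obtain ⟨y, rfl⟩ := QuotientAddGroup.mk_surjective q
      obtain ⟨v, rfl⟩ := Submodule.Quotient.mk_surjective _ y
      rfl
  -- the subgroup `W` is `V/𝔪V`
  have h1 : (augInertial p (levelAct ρ (IsLocalRing.maximalIdeal A))).index =
      (augInertial p (subAct (levelAct ρ I) W hW)).index := by
    have hle : IsLocalRing.maximalIdeal A • (⊤ : Submodule A ρ.V) ≤
        (I • (⊤ : Submodule A ρ.V)).comap (a • (LinearMap.id : ρ.V →ₗ[A] ρ.V)) := by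
      intro x hx
      rw [Submodule.mem_comap]
      show a • x ∈ I • (⊤ : Submodule A ρ.V)
      refine Submodule.smul_induction_on hx (fun r hr n _ => ?_) (fun x y hx hy => ?_)
      · rw [smul_smul, mul_comm]
        exact Submodule.smul_mem_smul (ham r hr) Submodule.mem_top
      · rw [smul_add]
        exact Submodule.add_mem _ hx hy
    let g₀ : (ρ.V ⧸ (IsLocalRing.maximalIdeal A • (⊤ : Submodule A ρ.V))) →ₗ[A]
        (ρ.V ⧸ (I • (⊤ : Submodule A ρ.V))) :=
      Submodule.mapQ _ _ (a • (LinearMap.id : ρ.V →ₗ[A] ρ.V)) hle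
    have hg₀ : ∀ v : ρ.V, g₀ (Submodule.Quotient.mk v) = Submodule.Quotient.mk (a • v) :=
      fun v => rfl
    have hg₀W : ∀ y, g₀ y ∈ W := by
      intro y
      obtain ⟨v, rfl⟩ := Submodule.Quotient.mk_surjective _ y
      exact (hWmem _).mpr ⟨a • v, Submodule.smul_mem_smul
        (Ideal.mem_sup_right (Ideal.mem_span_singleton_self a)) Submodule.mem_top, (hg₀ v).symm⟩
    let g : (ρ.V ⧸ (IsLocalRing.maximalIdeal A • (⊤ : Submodule A ρ.V))) →+ W :=
      g₀.toAddMonoidHom.codRestrict W hg₀W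
    have hginj : Function.Injective g := by
      rw [injective_iff_map_eq_zero]
      intro y hy
      obtain ⟨v, rfl⟩ := Submodule.Quotient.mk_surjective _ y
      have h0 : (Submodule.Quotient.mk (a • v) : ρ.V ⧸ (I • (⊤ : Submodule A ρ.V))) = 0 :=
        congrArg Subtype.val hy
      rw [Submodule.Quotient.mk_eq_zero] at h0 ⊢
      let b := Module.Free.chooseBasis A ρ.V
      refine mem_smul_top_of_repr_mem b _ fun i => ?_
      have hi := repr_mem_of_mem_smul_top b I h0 i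
      rw [map_smul, Finsupp.smul_apply, smul_eq_mul] at hi
      by_contra hcon
      have hu : IsUnit (b.repr v i) := by
        by_contra hnu
        exact hcon ((IsLocalRing.mem_maximalIdeal _).mpr hnu)
      apply ha
      have h3 := I.mul_mem_left ((hu.unit⁻¹ : Aˣ) : A) hi
      have h4 : ((hu.unit⁻¹ : Aˣ) : A) * (a * b.repr v i) = a := by
        rw [mul_comm a, ← mul_assoc, IsUnit.val_inv_mul, one_mul]
      rwa [h4] at h3
    have hgsurj : Function.Surjective g := by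
      rintro ⟨w, hw⟩
      obtain ⟨x, hx, rfl⟩ := (hWmem w).mp hw
      rw [Submodule.sup_smul, Submodule.mem_sup] at hx
      obtain ⟨x₁, hx₁, x₂, hx₂, rfl⟩ := hx
      rw [Submodule.ideal_span_singleton_smul] at hx₂
      obtain ⟨v, -, rfl⟩ := hx₂
      refine ⟨Submodule.Quotient.mk v, Subtype.ext ?_⟩
      show (Submodule.Quotient.mk (a • v) : ρ.V ⧸ (I • (⊤ : Submodule A ρ.V))) =
        Submodule.Quotient.mk (x₁ + a • v)
      rw [Submodule.Quotient.eq]
      have : a • v - (x₁ + a • v) = -x₁ := by abel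
      rw [this]
      exact Submodule.neg_mem _ hx₁
    refine index_augInertial_eq (AddEquiv.ofBijective g ⟨hginj, hgsurj⟩) ?_
    intro σ y
    obtain ⟨v, rfl⟩ := Submodule.Quotient.mk_surjective _ y
    apply Subtype.ext
    show g₀ (levelAct ρ _ σ (Submodule.Quotient.mk v)) =
      levelAct ρ I σ (g₀ (Submodule.Quotient.mk v))
    rw [levelAct_mk, hg₀, hg₀, levelAct_mk, map_smul]
  calc (augInertial p (levelAct ρ (IsLocalRing.maximalIdeal A))).index *
        (augInertial p (levelAct ρ (I ⊔ Ideal.span {a}))).index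
      ≤ (augInertial p (subAct (levelAct ρ I) W hW)).index * (augInertial p actQ).index := by
        rw [h1]
        exact Nat.mul_le_mul_left _ h2
    _ ≤ _ := key

/-- **the count, relative form**: Hopf orders on the levels `V / J V`, `I₀ ≤ J`, suffice for the
count on these levels. -/
theorem card_quot_le_index_augInertial_of_le (hp2 : p ≠ 2)
    (hpA : (p : A) ∈ IsLocalRing.maximalIdeal A) (I₀ : Ideal A)
    (hH : ∀ J : Ideal A, I₀ ≤ J → Finite (A ⧸ J) → HasHopfOrder p (levelAct ρ J))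
    (hk : Nat.card (IsLocalRing.ResidueField A) ≤
      (augInertial p (levelAct ρ (IsLocalRing.maximalIdeal A))).index)
    (I : Ideal A) (hI₀ : I₀ ≤ I) [Finite (A ⧸ I)] :
    Nat.card (A ⧸ I) ≤ (augInertial p (levelAct ρ I)).index := by
  classical
  suffices H : ∀ n : ℕ, ∀ (I : Ideal A) [Finite (A ⧸ I)], I₀ ≤ I → Nat.card (A ⧸ I) = n →
      Nat.card (A ⧸ I) ≤ (augInertial p (levelAct ρ I)).index from H _ I hI₀ rfl
  intro n
  induction n using Nat.strong_induction_on with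
  | _ n ih =>
    intro I _ hI₀ hn
    by_cases hI : I = ⊤
    · subst hI
      haveI := finite_level ρ (⊤ : Ideal A)
      haveI : Subsingleton (A ⧸ (⊤ : Ideal A)) := Ideal.Quotient.subsingleton_iff.mpr rfl
      rw [Nat.card_of_subsingleton (0 : A ⧸ (⊤ : Ideal A))]
      exact Nat.one_le_iff_ne_zero.mpr AddSubgroup.index_ne_zero_of_finite
    · obtain ⟨a, ha, ham⟩ := exists_socle I hI
      haveI : Finite (A ⧸ (I ⊔ Ideal.span {a})) :=
        Finite.of_surjective (Ideal.Quotient.factor (le_sup_left : I ≤ I ⊔ Ideal.span {a}))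
          (Ideal.Quotient.factor_surjective _)
      have hlt : Nat.card (A ⧸ (I ⊔ Ideal.span {a})) < n := by
        rw [← hn]
        haveI : Fintype (A ⧸ I) := Fintype.ofFinite _
        haveI : Fintype (A ⧸ (I ⊔ Ideal.span {a})) := Fintype.ofFinite _
        rw [Nat.card_eq_fintype_card, Nat.card_eq_fintype_card]
        refine Fintype.card_lt_of_surjective_not_injective
          (Ideal.Quotient.factor (le_sup_left : I ≤ I ⊔ Ideal.span {a}))
          (Ideal.Quotient.factor_surjective _) ?_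
        intro hinj
        apply ha
        rw [← Ideal.Quotient.eq_zero_iff_mem]
        apply hinj
        rw [map_zero, Ideal.Quotient.factor_mk, Ideal.Quotient.eq_zero_iff_mem]
        exact Ideal.mem_sup_right (Ideal.mem_span_singleton_self a)
      have h1 := ih _ hlt (I ⊔ Ideal.span {a}) (hI₀.trans le_sup_left) rfl
      calc Nat.card (A ⧸ I)
          ≤ Nat.card (IsLocalRing.ResidueField A) *
              Nat.card (A ⧸ (I ⊔ Ideal.span {a})) := card_quot_le_mul I hI ham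
        _ ≤ (augInertial p (levelAct ρ (IsLocalRing.maximalIdeal A))).index *
              (augInertial p (levelAct ρ (I ⊔ Ideal.span {a}))).index := Nat.mul_le_mul hk h1
        _ ≤ _ := index_mul_index_le_of_hasHopfOrder ρ hp2 hpA I (hH I hI₀ inferInstance) ha ham

end Count

/-! ### Algebra -/

section Algebra

variable {A : Type} [CommRing A] {V : Type} [AddCommGroup V] [Module A V]

/-- a vector outside `𝔪 V` is the first vector of a basis -/
theorem exists_basis_zero_eq [IsLocalRing A] (b₀ : Module.Basis (Fin 2) A V) {u : V}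
    (hu : u ∉ IsLocalRing.maximalIdeal A • (⊤ : Submodule A V)) :
    ∃ b : Module.Basis (Fin 2) A V, b 0 = u := by
  classical
  have hex : ∃ i, IsUnit (b₀.repr u i) := by
    by_contra hcon
    push Not at hcon
    exact hu (mem_smul_top_of_repr_mem b₀ _
      fun i => (IsLocalRing.mem_maximalIdeal _).mpr (hcon i))
  obtain ⟨x, hx⟩ : ∃ x, x = b₀.repr u 0 := ⟨_, rfl⟩
  obtain ⟨y, hy⟩ : ∃ y, y = b₀.repr u 1 := ⟨_, rfl⟩
  have hsum : u = x • b₀ 0 + y • b₀ 1 := by
    conv_lhs => rw [← b₀.sum_repr u, Fin.sum_univ_two]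
    rw [hx, hy]
  obtain ⟨i, hi⟩ := hex
  fin_cases i
  · have hxu : IsUnit x := by rw [hx]; exact hi
    let P : Matrix (Fin 2) (Fin 2) A := !![x, 0; y, 1]
    have hdet : IsUnit (LinearMap.toMatrix b₀ b₀ (Matrix.toLin b₀ b₀ P)).det := by
      rw [LinearMap.toMatrix_toLin, Matrix.det_fin_two_of]
      simpa using hxu
    refine ⟨b₀.map (LinearEquiv.ofIsUnitDet hdet), ?_⟩
    rw [Module.Basis.map_apply]
    show Matrix.toLin b₀ b₀ P (b₀ 0) = u
    rw [Matrix.toLin_self, Fin.sum_univ_two, hsum]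
    simp [P]
  · have hyu : IsUnit y := by rw [hy]; exact hi
    let P : Matrix (Fin 2) (Fin 2) A := !![x, 1; y, 0]
    have hdet : IsUnit (LinearMap.toMatrix b₀ b₀ (Matrix.toLin b₀ b₀ P)).det := by
      rw [LinearMap.toMatrix_toLin, Matrix.det_fin_two_of]
      simpa using hyu
    refine ⟨b₀.map (LinearEquiv.ofIsUnitDet hdet), ?_⟩
    rw [Module.Basis.map_apply]
    show Matrix.toLin b₀ b₀ P (b₀ 0) = u
    rw [Matrix.toLin_self, Fin.sum_univ_two, hsum]
    simp [P]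

/-- a submodule `L ∋ b₀` with `|A / I| ≤ |V / (L + I V)|` satisfies `L + I V = A b₀ + I V` -/
theorem repr_one_mem_of_card_le (b : Module.Basis (Fin 2) A V) (I : Ideal A) [Finite (A ⧸ I)]
    (L : Submodule A V) (hb : b 0 ∈ L)
    (hcard : Nat.card (A ⧸ I) ≤ Nat.card (V ⧸ (L ⊔ I • (⊤ : Submodule A V)))) {x : V}
    (hx : x ∈ L) : b.repr x 1 ∈ I := by
  classical
  let c : V →+ A ⧸ I :=
    ((Ideal.Quotient.mk I : A →+* A ⧸ I) : A →+ A ⧸ I).comp (b.coord 1).toAddMonoidHom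
  have hc : ∀ z : V, c z = Ideal.Quotient.mk I (b.repr z 1) := fun z => rfl
  have hcsurj : Function.Surjective c := by
    intro t
    obtain ⟨a, rfl⟩ := Ideal.Quotient.mk_surjective t
    refine ⟨a • b 1, ?_⟩
    rw [hc, map_smul, Finsupp.smul_apply, Module.Basis.repr_self, Finsupp.single_eq_same,
      smul_eq_mul, mul_one]
  have hle : c.ker ≤ (L ⊔ I • (⊤ : Submodule A V)).toAddSubgroup := by
    intro z hz
    rw [AddMonoidHom.mem_ker, hc, Ideal.Quotient.eq_zero_iff_mem] at hz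
    rw [Submodule.mem_toAddSubgroup]
    have hsum : z = b.repr z 0 • b 0 + b.repr z 1 • b 1 := by
      conv_lhs => rw [← b.sum_repr z, Fin.sum_univ_two]
    rw [hsum]
    exact Submodule.add_mem _ (Submodule.mem_sup_left (L.smul_mem _ hb))
      (Submodule.mem_sup_right (Submodule.smul_mem_smul hz Submodule.mem_top))
  have h1 : c.ker.index = Nat.card (A ⧸ I) := by
    rw [AddSubgroup.index_ker]
    have : c.range = ⊤ := AddMonoidHom.range_eq_top.mpr hcsurj
    rw [this]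
    exact Nat.card_congr (AddSubgroup.topEquiv).toEquiv
  have h2 : (L ⊔ I • (⊤ : Submodule A V)).toAddSubgroup.index =
      Nat.card (V ⧸ (L ⊔ I • (⊤ : Submodule A V))) := AddSubgroup.index_eq_card _
  have h3 := AddSubgroup.relIndex_mul_index hle
  have hpos : 0 < Nat.card (A ⧸ I) := Nat.card_pos
  have h4 : (L ⊔ I • (⊤ : Submodule A V)).toAddSubgroup.index ≠ 0 := by
    intro h0
    rw [h0, mul_zero, h1] at h3
    omega
  have h5 : c.ker.relIndex (L ⊔ I • (⊤ : Submodule A V)).toAddSubgroup = 1 := by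
    rw [h1] at h3
    rw [← h2] at hcard
    have h6 : c.ker.relIndex (L ⊔ I • (⊤ : Submodule A V)).toAddSubgroup ≠ 0 := by
      intro h0
      rw [h0, zero_mul] at h3
      omega
    by_contra hne
    have h7 : 2 ≤ c.ker.relIndex (L ⊔ I • (⊤ : Submodule A V)).toAddSubgroup := by omega
    have h8 : 2 * (L ⊔ I • (⊤ : Submodule A V)).toAddSubgroup.index ≤ Nat.card (A ⧸ I) := by
      rw [← h3]
      exact Nat.mul_le_mul_right _ h7
    omega
  have h9 : (L ⊔ I • (⊤ : Submodule A V)).toAddSubgroup ≤ c.ker :=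
    AddSubgroup.relIndex_eq_one.mp h5
  have h10 : x ∈ c.ker := h9 (Submodule.mem_sup_left hx)
  rw [AddMonoidHom.mem_ker, hc, Ideal.Quotient.eq_zero_iff_mem] at h10
  exact h10

/-- an endomorphism which is `≡ (α β; 0 1)` modulo `I` acts by its determinant on `A b₀ + I V`,
modulo `I V` -/
theorem apply_sub_det_smul_mem (b : Module.Basis (Fin 2) A V) (I : Ideal A) (f : V →ₗ[A] V)
    (h0 : b.repr (f (b 0)) 1 ∈ I) (h1 : b.repr (f (b 1)) 1 - 1 ∈ I) {x : V}
    (hx : b.repr x 1 ∈ I) : f x - LinearMap.det f • x ∈ I • (⊤ : Submodule A V) := by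
  classical
  obtain ⟨α, hα⟩ : ∃ α, α = b.repr (f (b 0)) 0 := ⟨_, rfl⟩
  obtain ⟨γ, hγ⟩ : ∃ γ, γ = b.repr (f (b 0)) 1 := ⟨_, rfl⟩
  obtain ⟨β, hβ⟩ : ∃ β, β = b.repr (f (b 1)) 0 := ⟨_, rfl⟩
  obtain ⟨δ, hδ⟩ : ∃ δ, δ = b.repr (f (b 1)) 1 := ⟨_, rfl⟩
  obtain ⟨x₀, hx₀⟩ : ∃ x₀, x₀ = b.repr x 0 := ⟨_, rfl⟩
  obtain ⟨x₁, hx₁⟩ : ∃ x₁, x₁ = b.repr x 1 := ⟨_, rfl⟩
  have hd : LinearMap.det f = α * δ - β * γ := by
    rw [← LinearMap.det_toMatrix b f, Matrix.det_fin_two, LinearMap.toMatrix_apply,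
      LinearMap.toMatrix_apply, LinearMap.toMatrix_apply, LinearMap.toMatrix_apply, hα, hβ, hγ, hδ]
  have hf0 : f (b 0) = α • b 0 + γ • b 1 := by
    conv_lhs => rw [← b.sum_repr (f (b 0)), Fin.sum_univ_two]
    rw [hα, hγ]
  have hf1 : f (b 1) = β • b 0 + δ • b 1 := by
    conv_lhs => rw [← b.sum_repr (f (b 1)), Fin.sum_univ_two]
    rw [hβ, hδ]
  have hxs : x = x₀ • b 0 + x₁ • b 1 := by
    conv_lhs => rw [← b.sum_repr x, Fin.sum_univ_two]
    rw [hx₀, hx₁]
  rw [← hγ] at h0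
  rw [← hδ] at h1
  rw [← hx₁] at hx
  have e : f x - LinearMap.det f • x =
      (x₀ * α * (1 - δ) + x₁ * β + β * γ * x₀) • b 0 +
        (x₀ * γ + x₁ * (δ - LinearMap.det f)) • b 1 := by
    rw [hxs, map_add, map_smul, map_smul, hf0, hf1, hd]
    module
  rw [e]
  refine Submodule.add_mem _ (Submodule.smul_mem_smul ?_ Submodule.mem_top)
    (Submodule.smul_mem_smul ?_ Submodule.mem_top)
  · have h2 : (1 - δ) ∈ I := by
      have := I.neg_mem h1
      rwa [neg_sub] at this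
    exact I.add_mem (I.add_mem (I.mul_mem_left _ h2) (I.mul_mem_right _ hx))
      (I.mul_mem_right _ (I.mul_mem_left _ h0))
  · exact I.add_mem (I.mul_mem_left _ h0) (I.mul_mem_right _ hx)

end Algebra

/-! ### STEP 1, levelwise -/

section Main

variable {A : Type} [CommRing A] [IsLocalRing A] (ρ : GaloisRepAdic A) (q : Nat.Primes)

/-- an inertia element with `det - 1` a unit moves some vector outside `𝔪 V` -/
theorem exists_sub_not_mem {σ₀ : GQ} (hu : IsUnit (LinearMap.det (ρ.ρ σ₀) - 1)) :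
    ∃ v₀ : ρ.V, ρ.ρ σ₀ v₀ - v₀ ∉ IsLocalRing.maximalIdeal A • (⊤ : Submodule A ρ.V) := by
  classical
  by_contra hcon
  push Not at hcon
  let b₀ : Module.Basis (Fin 2) A ρ.V := Module.finBasisOfFinrankEq A ρ.V ρ.finrank_eq
  have hent : ∀ i j, b₀.repr (ρ.ρ σ₀ (b₀ j)) i - b₀.repr (b₀ j) i ∈
      IsLocalRing.maximalIdeal A := by
    intro i j
    have := repr_mem_of_mem_smul_top b₀ _ (hcon (b₀ j)) i
    rwa [map_sub, Finsupp.sub_apply] at this
  have h00 := hent 0 0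
  have h10 := hent 1 0
  have h01 := hent 0 1
  have h11 := hent 1 1
  rw [Module.Basis.repr_self] at h00 h10 h01 h11
  rw [Finsupp.single_eq_same] at h00 h11
  rw [Finsupp.single_eq_of_ne (by decide), sub_zero] at h10 h01
  have hd : LinearMap.det (ρ.ρ σ₀) =
      b₀.repr (ρ.ρ σ₀ (b₀ 0)) 0 * b₀.repr (ρ.ρ σ₀ (b₀ 1)) 1 -
        b₀.repr (ρ.ρ σ₀ (b₀ 1)) 0 * b₀.repr (ρ.ρ σ₀ (b₀ 0)) 1 := by
    rw [← LinearMap.det_toMatrix b₀ (ρ.ρ σ₀), Matrix.det_fin_two, LinearMap.toMatrix_apply,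
      LinearMap.toMatrix_apply, LinearMap.toMatrix_apply, LinearMap.toMatrix_apply]
  have hmem : LinearMap.det (ρ.ρ σ₀) - 1 ∈ IsLocalRing.maximalIdeal A := by
    have e : LinearMap.det (ρ.ρ σ₀) - 1 =
        (b₀.repr (ρ.ρ σ₀ (b₀ 0)) 0 - 1) * b₀.repr (ρ.ρ σ₀ (b₀ 1)) 1 +
          (b₀.repr (ρ.ρ σ₀ (b₀ 1)) 1 - 1) -
          b₀.repr (ρ.ρ σ₀ (b₀ 1)) 0 * b₀.repr (ρ.ρ σ₀ (b₀ 0)) 1 := by
      rw [hd]
      ring
    rw [e]
    exact Ideal.sub_mem _ (Ideal.add_mem _ (Ideal.mul_mem_right _ _ h00) h11)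
      (Ideal.mul_mem_right _ _ h01)
  exact (IsLocalRing.mem_maximalIdeal _).mp hmem hu

/-- **STEP 1, levelwise, at `primeLocalPlace q`.** -/
theorem omega_apply_mem_primeLocalPlace (hq2 : (q : ℕ) ≠ 2)
    (hqA : ((q : ℕ) : A) ∈ IsLocalRing.maximalIdeal A)
    (hfin : Finite (IsLocalRing.ResidueField A))
    (hres : (GaloisRepAdic.ofResidualGaloisRep ρ.residual).IsOrdinaryAt (q : ℕ))
    (I : Ideal A) [Finite (A ⧸ I)]
    (hH : ∀ J : Ideal A, I ≤ J → Finite (A ⧸ J) → HasHopfOrder (q : ℕ) (levelAct ρ J))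
    (hσ₀ : ∃ σ₀ ∈ (primeLocalPlace q).inertiaSubgroupIn ℚ,
      IsUnit (LinearMap.det (ρ.ρ σ₀) - 1))
    {σ' τ : GQ} (hσ' : σ' ∈ (primeLocalPlace q).inertiaSubgroupIn ℚ)
    (hτ : τ ∈ (primeLocalPlace q).inertiaSubgroupIn ℚ) (v : ρ.V) :
    ((ρ.ρ τ - LinearMap.det (ρ.ρ τ) • (1 : Module.End A ρ.V)) * (ρ.ρ σ' - 1)) v ∈
      I • (⊤ : Submodule A ρ.V) := by
  classical
  -- the count
  obtain ⟨L, ⟨bres, rfl⟩, -, hIres⟩ := hres (primeLocalPlace q) (liesOverPrime_primeLocalPlace q)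
  have hk := card_residueField_le ρ q hfin bres hIres
  have hcount : Nat.card (A ⧸ I) ≤
      Nat.card (ρ.V ⧸ (augSub ρ (primeLocalPlace q) ⊔ I • (⊤ : Submodule A ρ.V))) :=
    (card_quot_le_index_augInertial_of_le ρ hq2 hqA I hH hk I le_rfl).trans
      (index_augInertial_le_card_quot ρ q I)
  -- a basis with `b 0 ∈ L`
  obtain ⟨σ₀, hσ₀mem, hu⟩ := hσ₀
  obtain ⟨v₀, hv₀⟩ := exists_sub_not_mem ρ hu
  obtain ⟨b, hb⟩ := exists_basis_zero_eq (Module.finBasisOfFinrankEq A ρ.V ρ.finrank_eq) hv₀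
  have hbL : b 0 ∈ augSub ρ (primeLocalPlace q) := by
    rw [hb]
    exact sub_mem_augSub ρ _ hσ₀mem v₀
  have hrepr : ∀ x ∈ augSub ρ (primeLocalPlace q), b.repr x 1 ∈ I :=
    fun x hx => repr_one_mem_of_card_le b I _ hbL hcount hx
  -- `τ` in the basis `b`
  have h0 : b.repr (ρ.ρ τ (b 0)) 1 ∈ I := by
    have := hrepr _ (sub_mem_augSub ρ _ hτ (b 0))
    rwa [map_sub, Finsupp.sub_apply, Module.Basis.repr_self,
      Finsupp.single_eq_of_ne (by decide), sub_zero] at this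
  have h1 : b.repr (ρ.ρ τ (b 1)) 1 - 1 ∈ I := by
    have := hrepr _ (sub_mem_augSub ρ _ hτ (b 1))
    rwa [map_sub, Finsupp.sub_apply, Module.Basis.repr_self, Finsupp.single_eq_same] at this
  have hx := hrepr _ (sub_mem_augSub ρ _ hσ' v)
  have key := apply_sub_det_smul_mem b I (ρ.ρ τ) h0 h1 hx
  have e : ((ρ.ρ τ - LinearMap.det (ρ.ρ τ) • (1 : Module.End A ρ.V)) * (ρ.ρ σ' - 1)) v =
      ρ.ρ τ (ρ.ρ σ' v - v) - LinearMap.det (ρ.ρ τ) • (ρ.ρ σ' v - v) := by
    simp only [Module.End.mul_apply, LinearMap.sub_apply, LinearMap.smul_apply,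
      Module.End.one_apply]
  rw [e]
  exact key

/-- **STEP 1, levelwise** (the shape of `(OLD)` in the top level of S33): for an ideal `I` of finite
index such that all levels `V / J V`, `I ≤ J`, carry Hopf orders at `q ≠ 2`, `ρ̄` ordinary at `q`,
and `det ρ σ₀ - 1` a unit for some inertia element `σ₀`: `Ω(τ, σ') V ⊆ I V` for all `P | q` and
`σ', τ ∈ I_P`. -/
theorem omega_apply_mem (hq2 : (q : ℕ) ≠ 2)
    (hqA : ((q : ℕ) : A) ∈ IsLocalRing.maximalIdeal A)
    (hfin : Finite (IsLocalRing.ResidueField A))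
    (hres : (GaloisRepAdic.ofResidualGaloisRep ρ.residual).IsOrdinaryAt (q : ℕ))
    (I : Ideal A) [Finite (A ⧸ I)]
    (hH : ∀ J : Ideal A, I ≤ J → Finite (A ⧸ J) → HasHopfOrder (q : ℕ) (levelAct ρ J))
    (hσ₀ : ∃ σ₀ ∈ (primeLocalPlace q).inertiaSubgroupIn ℚ,
      IsUnit (LinearMap.det (ρ.ρ σ₀) - 1))
    (P : ValuationSubring Qbar) (hP : P.LiesOverPrime (q : ℕ))
    {σ' τ : GQ} (hσ' : σ' ∈ P.inertiaSubgroupIn ℚ) (hτ : τ ∈ P.inertiaSubgroupIn ℚ)
    (v : ρ.V) :
    ((ρ.ρ τ - LinearMap.det (ρ.ρ τ) • (1 : Module.End A ρ.V)) * (ρ.ρ σ' - 1)) v ∈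
      I • (⊤ : Submodule A ρ.V) := by
  obtain ⟨g, rfl⟩ := exists_smul_padicPlace_eq (q : ℕ) hP
  -- conjugate into `primeLocalPlace q`
  have hσ'₀ : g⁻¹ * σ' * g ∈ (primeLocalPlace q).inertiaSubgroupIn ℚ := by
    have h1 := conj_mem_inertiaSubgroupIn (g • padicPlace (q : ℕ)) g⁻¹ σ' hσ'
    rwa [inv_smul_smul, inv_inv] at h1
  have hτ₀ : g⁻¹ * τ * g ∈ (primeLocalPlace q).inertiaSubgroupIn ℚ := by
    have h1 := conj_mem_inertiaSubgroupIn (g • padicPlace (q : ℕ)) g⁻¹ τ hτ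
    rwa [inv_smul_smul, inv_inv] at h1
  have key := omega_apply_mem_primeLocalPlace ρ q hq2 hqA hfin hres I hH hσ₀ hσ'₀ hτ₀
    (ρ.ρ g⁻¹ v)
  have hgg : ρ.ρ g * ρ.ρ g⁻¹ = 1 := by rw [← map_mul, mul_inv_cancel, map_one]
  have hgg' : ρ.ρ g⁻¹ * ρ.ρ g = 1 := by rw [← map_mul, inv_mul_cancel, map_one]
  have hdet : LinearMap.det (ρ.ρ (g⁻¹ * τ * g)) = LinearMap.det (ρ.ρ τ) := by
    rw [map_mul, map_mul, map_mul, map_mul, mul_comm (LinearMap.det (ρ.ρ g⁻¹)), mul_assoc,
      ← map_mul, hgg', map_one, mul_one]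
  have e : ((ρ.ρ τ - LinearMap.det (ρ.ρ τ) • (1 : Module.End A ρ.V)) * (ρ.ρ σ' - 1)) v =
      ρ.ρ g (((ρ.ρ (g⁻¹ * τ * g) - LinearMap.det (ρ.ρ (g⁻¹ * τ * g)) •
        (1 : Module.End A ρ.V)) * (ρ.ρ (g⁻¹ * σ' * g) - 1)) (ρ.ρ g⁻¹ v)) := by
    have hτc : ρ.ρ g * ρ.ρ (g⁻¹ * τ * g) = ρ.ρ τ * ρ.ρ g := by
      rw [← map_mul, ← map_mul]
      congr 1
      group
    have hσc : ρ.ρ g * ρ.ρ (g⁻¹ * σ' * g) = ρ.ρ σ' * ρ.ρ g := by
      rw [← map_mul, ← map_mul]
      congr 1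
      group
    have hτc' : ∀ w, ρ.ρ g (ρ.ρ (g⁻¹ * τ * g) w) = ρ.ρ τ (ρ.ρ g w) := fun w => by
      rw [← Module.End.mul_apply, hτc, Module.End.mul_apply]
    have hσc' : ∀ w, ρ.ρ g (ρ.ρ (g⁻¹ * σ' * g) w) = ρ.ρ σ' (ρ.ρ g w) := fun w => by
      rw [← Module.End.mul_apply, hσc, Module.End.mul_apply]
    have hgv : ρ.ρ g (ρ.ρ g⁻¹ v) = v := by
      rw [← Module.End.mul_apply, hgg, Module.End.one_apply]
    rw [hdet]
    simp only [Module.End.mul_apply, LinearMap.sub_apply, LinearMap.smul_apply,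
      Module.End.one_apply, map_sub, map_smul, hτc', hσc', hgv]
  rw [e]
  exact map_mem_smul_top (ρ.ρ g) I key

end Main

end Fermat.Agent.S33.Ord.Levelwise
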