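/-
S33, block (OLD) = STEP 1, plumbing (helper22): **absolute irreducibility of the residual
representation passes to the base change along a local homomorphism** (the residue field changes
type, so instead of comparing algebraic closures we go through Burnside:
`ρ̄` absolutely irreducible ⇒ `ρ(Γ)` spans `End_T V` (`S31.TraceRigid`) ⇒ the base changes span
⇒ every stable subspace over the algebraic closure of the new residue field is trivial).

* `eq_bot_or_eq_top_of_forall_end` : a subspace stable under all endomorphisms is `⊥` or `⊤`;
* `span_baseChange_eq_top` : if `S` spans `End_R M` (`M` free of finite rank) then the base changes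
  of the elements of `S` span `End_{R'} (R' ⊗ M)`;
* `isAbsolutelyIrreducible_of_span_eq_top` : converse of Burnside for a `GaloisRepAdic`;
* `isAbsolutelyIrreducible_baseChangeAlong`.
-/
import Mathlib
import Fermat.Prelude.Def_GaloisRep_Adic
import Fermat.Agent.S31.TraceRigid

set_option autoImplicit false
set_option linter.unusedSectionVars false
set_option linter.style.haveILetI false

open scoped TensorProduct

namespace Fermat.Agent.S33.Ord.AbsIrr

local notation "Γ" => (AlgebraicClosure ℚ ≃ₐ[ℚ] AlgebraicClosure ℚ)

section LinearAlgebra

/-- a subspace stable under all endomorphisms is trivial -/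
theorem eq_bot_or_eq_top_of_forall_end {K N : Type*} [Field K] [AddCommGroup N] [Module K N]
    (W : Submodule K N) (hW : ∀ g : Module.End K N, ∀ x ∈ W, g x ∈ W) : W = ⊥ ∨ W = ⊤ := by
  by_cases h : W = ⊥
  · exact Or.inl h
  right
  obtain ⟨w, hw, hw0⟩ := Submodule.exists_mem_ne_zero_of_ne_bot h
  obtain ⟨f, hf⟩ : ∃ f : Module.Dual K N, f w ≠ 0 := by
    by_contra hall
    push Not at hall
    exact hw0 ((Module.forall_dual_apply_eq_zero_iff K w).mp hall)
  rw [eq_top_iff]
  intro n _
  have h1 := hW (f.smulRight n) w hw
  rw [LinearMap.smulRight_apply] at h1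
  have h2 := W.smul_mem (f w)⁻¹ h1
  rwa [smul_smul, inv_mul_cancel₀ hf, one_smul] at h2

/-- a subspace stable under a spanning set of endomorphisms is trivial -/
theorem eq_bot_or_eq_top_of_span_eq_top {K N : Type*} [Field K] [AddCommGroup N] [Module K N]
    (S : Set (Module.End K N)) (hS : Submodule.span K S = ⊤)
    (W : Submodule K N) (hW : ∀ g ∈ S, ∀ x ∈ W, g x ∈ W) : W = ⊥ ∨ W = ⊤ := by
  refine eq_bot_or_eq_top_of_forall_end W fun g x hx => ?_
  have hg : g ∈ Submodule.span K S := by rw [hS]; exact Submodule.mem_top
  induction hg using Submodule.span_induction with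
  | mem g hg => exact hW g hg x hx
  | zero => rw [LinearMap.zero_apply]; exact W.zero_mem
  | add f g _ _ hf hg => rw [LinearMap.add_apply]; exact W.add_mem hf hg
  | smul r f _ hf => rw [LinearMap.smul_apply]; exact W.smul_mem r hf

variable {R R' M : Type*} [CommRing R] [CommRing R'] [Algebra R R'] [AddCommGroup M] [Module R M]
  {ι : Type*} [Fintype ι] [DecidableEq ι]

/-- spanning sets of `End_R M` base change to spanning sets -/
theorem span_baseChange_eq_top (c : Module.Basis ι R M) (S : Set (Module.End R M))
    (hS : Submodule.span R S = ⊤) :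
    Submodule.span R' ((fun f : Module.End R M => f.baseChange R') '' S) = ⊤ := by
  have h1 : ∀ f : Module.End R M, f.baseChange R' ∈
      Submodule.span R' ((fun f : Module.End R M => f.baseChange R') '' S) := by
    intro f
    have hf : f ∈ Submodule.span R S := by rw [hS]; exact Submodule.mem_top
    induction hf using Submodule.span_induction with
    | mem f hf => exact Submodule.subset_span ⟨f, hf, rfl⟩
    | zero => rw [LinearMap.baseChange_zero]; exact Submodule.zero_mem _
    | add f g _ _ hf hg => rw [LinearMap.baseChange_add]; exact Submodule.add_mem _ hf hg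
    | smul r f _ hf =>
      have h2 : (r • f).baseChange R' = algebraMap R R' r • f.baseChange R' := by
        refine LinearMap.ext fun x => ?_
        induction x using TensorProduct.induction_on with
        | zero => rw [map_zero, map_zero]
        | tmul a m =>
          rw [LinearMap.smul_apply, LinearMap.baseChange_tmul, LinearMap.baseChange_tmul,
            LinearMap.smul_apply, TensorProduct.tmul_smul, algebraMap_smul]
        | add x y hx hy => rw [map_add, map_add, hx, hy]
      rw [h2]
      exact Submodule.smul_mem _ _ hf
  rw [eq_top_iff]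
  intro g _
  have hg : g = ∑ i, ∑ j, ((c.baseChange R').repr (g ((c.baseChange R') j)) i) •
      ((c.coord j).smulRight (c i)).baseChange R' := by
    refine (c.baseChange R').ext fun l => ?_
    rw [LinearMap.sum_apply]
    conv_lhs => rw [← (c.baseChange R').sum_repr (g ((c.baseChange R') l))]
    refine Finset.sum_congr rfl fun i _ => ?_
    rw [LinearMap.sum_apply, Finset.sum_eq_single l]
    · simp only [LinearMap.smul_apply, Module.Basis.baseChange_apply, LinearMap.baseChange_tmul,
        LinearMap.smulRight_apply, Module.Basis.coord_apply, Module.Basis.repr_self,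
        Finsupp.single_eq_same, one_smul]
    · intro j _ hjl
      simp only [LinearMap.smul_apply, Module.Basis.baseChange_apply, LinearMap.baseChange_tmul,
        LinearMap.smulRight_apply, Module.Basis.coord_apply, Module.Basis.repr_self]
      rw [Finsupp.single_apply, if_neg hjl.symm, zero_smul, TensorProduct.tmul_zero, smul_zero]
    · intro h
      exact absurd (Finset.mem_univ l) h
  rw [hg]
  exact Submodule.sum_mem _ fun i _ => Submodule.sum_mem _ fun j _ =>
    Submodule.smul_mem _ _ (h1 _)

end LinearAlgebra

section Galois

variable {T : Type} [CommRing T] [IsLocalRing T]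

/-- converse of Burnside: if the `ρ σ` span `End_T V`, the residual representation is absolutely
irreducible -/
theorem isAbsolutelyIrreducible_of_span_eq_top (ρ : GaloisRepAdic T)
    (h : Submodule.span T (Set.range ρ.ρ) = ⊤) : ρ.residual.IsAbsolutelyIrreducible := by
  let c : Module.Basis (Fin 2) T ρ.V := Module.finBasisOfFinrankEq T ρ.V ρ.finrank_eq
  have h2 := span_baseChange_eq_top (R' := IsLocalRing.ResidueField T) c _ h
  have h3 := span_baseChange_eq_top
    (R' := AlgebraicClosure (IsLocalRing.ResidueField T))
    (c.baseChange (IsLocalRing.ResidueField T)) _ h2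
  intro W hW
  refine eq_bot_or_eq_top_of_span_eq_top _ h3 W ?_
  rintro _ ⟨_, ⟨_, ⟨σ, rfl⟩, rfl⟩, rfl⟩ x hx
  exact hW σ x hx

/-- **absolute irreducibility of the residual representation passes to base changes along local
homomorphisms** -/
theorem isAbsolutelyIrreducible_baseChangeAlong {B : Type} [CommRing B] [IsLocalRing B]
    (φ : T →+* B) (hφ : IsLocalHom φ) (ρ : GaloisRepAdic T)
    (habs : ρ.residual.IsAbsolutelyIrreducible) :
    (ρ.baseChangeAlong φ hφ).residual.IsAbsolutelyIrreducible := by
  letI : Algebra T B := φ.toAlgebra
  let c : Module.Basis (Fin 2) T ρ.V := Module.finBasisOfFinrankEq T ρ.V ρ.finrank_eq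
  have h1 := Fermat.Agent.S31.TraceRigid.span_range_eq_top_of_isAbsolutelyIrreducible ρ habs
  have h2 := span_baseChange_eq_top (R' := B) c _ h1
  refine isAbsolutelyIrreducible_of_span_eq_top (ρ.baseChangeAlong φ hφ) ?_
  refine eq_top_iff.mpr (le_trans (le_of_eq h2.symm) (Submodule.span_mono ?_))
  rintro _ ⟨_, ⟨σ, rfl⟩, rfl⟩
  exact ⟨σ, rfl⟩

end Galois

end Fermat.Agent.S33.Ord.AbsIrr
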