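/-
S33, block (OLD) = STEP 1 "flat + residually ordinary ⇒ ordinary", leaf (O5) (helper22): the
algebra.  `A` a local ring, `V` free of rank two.

* `exists_basis_of_not_mem` : a vector outside `𝔪 V` is the first vector of a basis;
* `eq_span_of_forall_card_le` : `A` Noetherian, `L ≤ V` a submodule containing the basis vector
  `b 0`, and `|A ⧸ 𝔪ⁿ| ≤ |V ⧸ (𝔪ⁿ V + L)|` for all `n` (all finite).  Then `L = A ∙ b 0`
  (`a ↦ a • b 1` maps `A ⧸ 𝔪ⁿ` onto `V ⧸ (𝔪ⁿ V + L)`, the count makes it injective, and the Krull
  intersection theorem gives `L ∩ A • b 1 = 0`).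
* `not_mem_of_isUnit_det_sub_one` : an endomorphism `s` with `det s − 1` a unit moves some vector
  outside `𝔪 V`.
-/
import Mathlib

set_option autoImplicit false
set_option linter.unusedSectionVars false
set_option linter.style.haveILetI false

namespace Fermat.Agent.S33.Ord.Algebra

open IsLocalRing

section Basis

variable {A V : Type*} [CommRing A] [IsLocalRing A] [AddCommGroup V] [Module A V]

/-- a vector outside `𝔪 V` of a free module of rank two over a local ring is the first vector of a
basis -/
theorem exists_basis_of_not_mem (c : Module.Basis (Fin 2) A V) {u : V}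
    (hu : u ∉ maximalIdeal A • (⊤ : Submodule A V)) :
    ∃ b : Module.Basis (Fin 2) A V, b 0 = u := by
  have hu' : u = c.repr u 0 • c 0 + c.repr u 1 • c 1 := by
    conv_lhs => rw [← c.sum_repr u]
    rw [Fin.sum_univ_two]
  have hxy : IsUnit (c.repr u 0) ∨ IsUnit (c.repr u 1) := by
    by_contra h
    push Not at h
    apply hu
    rw [hu']
    exact Submodule.add_mem _
      (Submodule.smul_mem_smul ((mem_maximalIdeal _).2 h.1) Submodule.mem_top)
      (Submodule.smul_mem_smul ((mem_maximalIdeal _).2 h.2) Submodule.mem_top)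
  obtain ⟨M, hM, hM0, hM1⟩ : ∃ M : Matrix (Fin 2) (Fin 2) A, IsUnit M.det ∧
      M 0 0 = c.repr u 0 ∧ M 1 0 = c.repr u 1 := by
    rcases hxy with h | h
    · refine ⟨!![c.repr u 0, 0; c.repr u 1, 1], ?_, rfl, rfl⟩
      rw [Matrix.det_fin_two_of, mul_one, zero_mul, sub_zero]
      exact h
    · refine ⟨!![c.repr u 0, 1; c.repr u 1, 0], ?_, rfl, rfl⟩
      rw [Matrix.det_fin_two_of, mul_zero, one_mul, zero_sub]
      exact h.neg
  refine ⟨c.map (Matrix.toLinearEquiv c M hM), ?_⟩
  rw [Module.Basis.map_apply, Matrix.toLinearEquiv_apply, Matrix.toLin_self, Fin.sum_univ_two,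
    hM0, hM1]
  exact hu'.symm

end Basis

section Count

variable {A V : Type*} [CommRing A] [IsLocalRing A] [IsNoetherianRing A] [AddCommGroup V]
  [Module A V]

/-- **(O5)**: a submodule of a free module of rank two over a Noetherian local ring which contains
a basis vector and has large quotients modulo all powers of the maximal ideal is the line spanned
by that basis vector. -/
theorem eq_span_of_forall_card_le (b : Module.Basis (Fin 2) A V) (L : Submodule A V)
    (hb : b 0 ∈ L)
    (hcard : ∀ n : ℕ, Finite (A ⧸ maximalIdeal A ^ n) ∧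
      Nat.card (A ⧸ maximalIdeal A ^ n) ≤
        Nat.card (V ⧸ ((maximalIdeal A ^ n) • (⊤ : Submodule A V) ⊔ L))) :
    L = Submodule.span A {b 0} := by
  refine le_antisymm ?_ ((Submodule.span_singleton_le_iff_mem _ _).mpr hb)
  intro l hl
  have hl' : l = b.repr l 0 • b 0 + b.repr l 1 • b 1 := by
    conv_lhs => rw [← b.sum_repr l]
    rw [Fin.sum_univ_two]
  have hy : b.repr l 1 • b 1 ∈ L := by
    have h1 : b.repr l 1 • b 1 = l - b.repr l 0 • b 0 := by
      rw [eq_sub_iff_add_eq, add_comm]
      exact hl'.symm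
    rw [h1]
    exact L.sub_mem hl (L.smul_mem _ hb)
  -- `y = 0` by the Krull intersection theorem
  suffices h0 : b.repr l 1 = 0 by
    rw [hl', h0, zero_smul, add_zero]
    exact Submodule.smul_mem _ _ (Submodule.mem_span_singleton_self _)
  have hkrull : ⨅ n : ℕ, maximalIdeal A ^ n = ⊥ :=
    Ideal.iInf_pow_eq_bot_of_isLocalRing _ (maximalIdeal.isMaximal A).ne_top
  have hmem : b.repr l 1 ∈ ⨅ n : ℕ, maximalIdeal A ^ n := by
    rw [Ideal.mem_iInf]
    intro n
    obtain ⟨hfin, hle⟩ := hcard n
    set Q := (maximalIdeal A ^ n) • (⊤ : Submodule A V) ⊔ L with hQ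
    -- `a ↦ a • b 1` onto `V ⧸ Q`
    let h : A →ₗ[A] V ⧸ Q := Q.mkQ ∘ₗ LinearMap.toSpanSingleton A V (b 1)
    have hh : ∀ a : A, h a = Submodule.Quotient.mk (a • b 1) := fun a => rfl
    have hsurj : Function.Surjective h := by
      intro q
      induction q using Submodule.Quotient.induction_on with
      | _ v =>
        refine ⟨b.repr v 1, ?_⟩
        rw [hh, Submodule.Quotient.eq]
        have hv : v = b.repr v 0 • b 0 + b.repr v 1 • b 1 := by
          conv_lhs => rw [← b.sum_repr v]
          rw [Fin.sum_univ_two]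
        have h2 : v - b.repr v 1 • b 1 = b.repr v 0 • b 0 := by
          rw [sub_eq_iff_eq_add]
          exact hv
        rw [← neg_sub, h2]
        exact Q.neg_mem (Q.smul_mem _ (Submodule.mem_sup_right hb))
    have hker : maximalIdeal A ^ n ≤ (LinearMap.ker h : Ideal A) := by
      intro a ha
      rw [LinearMap.mem_ker, hh, Submodule.Quotient.mk_eq_zero]
      exact Submodule.mem_sup_left (Submodule.smul_mem_smul ha Submodule.mem_top)
    have e : (A ⧸ (LinearMap.ker h : Ideal A)) ≃ₗ[A] (V ⧸ Q) :=
      h.quotKerEquivOfSurjective hsurj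
    have hcardQ : Nat.card (V ⧸ Q) = Nat.card (A ⧸ (LinearMap.ker h : Ideal A)) :=
      (Nat.card_congr e.toEquiv).symm
    have hfs := Ideal.Quotient.factor_surjective hker
    haveI : Finite (A ⧸ (LinearMap.ker h : Ideal A)) := Finite.of_surjective _ hfs
    have hbij : Function.Bijective (Ideal.Quotient.factor hker) :=
      hfs.bijective_of_nat_card_le (by rw [← hcardQ]; exact hle)
    have hyker : b.repr l 1 ∈ (LinearMap.ker h : Ideal A) := by
      rw [LinearMap.mem_ker, hh, Submodule.Quotient.mk_eq_zero]
      exact Submodule.mem_sup_right hy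
    have h3 : Ideal.Quotient.factor hker (Ideal.Quotient.mk _ (b.repr l 1)) =
        Ideal.Quotient.factor hker 0 := by
      rw [Ideal.Quotient.factor_mk, map_zero]
      exact Ideal.Quotient.eq_zero_iff_mem.mpr hyker
    exact Ideal.Quotient.eq_zero_iff_mem.mp (hbij.1 h3)
  rw [hkrull] at hmem
  exact hmem

end Count

section Det

variable {A V : Type*} [CommRing A] [IsLocalRing A] [AddCommGroup V] [Module A V]

/-- an endomorphism of a free module of finite rank with `det s − 1` a unit moves some vector
outside `𝔪 V` -/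
theorem exists_not_mem_of_isUnit_det_sub_one {ι : Type*} [Fintype ι] [DecidableEq ι]
    (b : Module.Basis ι A V) (s : Module.End A V) (hs : IsUnit (LinearMap.det s - 1)) :
    ∃ v : V, s v - v ∉ maximalIdeal A • (⊤ : Submodule A V) := by
  by_contra hall
  push Not at hall
  -- all entries of `M − 1` lie in `𝔪`
  have hent : ∀ i j, LinearMap.toMatrix b b s i j - (1 : Matrix ι ι A) i j ∈ maximalIdeal A := by
    intro i j
    have h1 := hall (b j)
    have h2 : LinearMap.toMatrix b b s i j - (1 : Matrix ι ι A) i j = b.repr (s (b j) - b j) i := by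
      rw [LinearMap.toMatrix_apply, map_sub, Finsupp.sub_apply, Module.Basis.repr_self,
        Matrix.one_apply, Finsupp.single_apply]
      congr 1
      by_cases hij : i = j
      · rw [if_pos hij, if_pos hij.symm]
      · rw [if_neg hij, if_neg (Ne.symm hij)]
    rw [h2]
    -- coordinates of an element of `𝔪 V`
    refine Submodule.smul_induction_on (p := fun x => b.repr x i ∈ maximalIdeal A) h1 ?_ ?_
    · intro a ha w _
      rw [map_smul, Finsupp.smul_apply, smul_eq_mul]
      exact Ideal.mul_mem_right _ _ ha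
    · intro x y hx hy
      rw [map_add, Finsupp.add_apply]
      exact Ideal.add_mem _ hx hy
  have hmap : (LinearMap.toMatrix b b s).map (Ideal.Quotient.mk (maximalIdeal A)) = 1 := by
    ext i j
    rw [Matrix.map_apply, Matrix.one_apply]
    have h1 := Ideal.Quotient.eq.mpr (hent i j)
    rw [h1, Matrix.one_apply]
    split_ifs <;> simp
  have hdet : Ideal.Quotient.mk (maximalIdeal A) (LinearMap.det s) = 1 := by
    rw [← LinearMap.det_toMatrix b, RingHom.map_det, RingHom.mapMatrix_apply, hmap, Matrix.det_one]
  have hmem : LinearMap.det s - 1 ∈ maximalIdeal A := by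
    rw [← Ideal.Quotient.eq_zero_iff_mem, map_sub, hdet, map_one, sub_self]
  exact (mem_maximalIdeal _).1 hmem hs

end Det

end Fermat.Agent.S33.Ord.Algebra
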