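/-
S33, block (OLD) = STEP 1, base-change plumbing (helper22): `φ : T →+* B` a SURJECTIVE local
homomorphism of local rings, `ρ : GaloisRepAdic T`, `ρ_B := ρ.baseChangeAlong φ hφ`.

* `exists_one_tmul` : every element of `B ⊗[T] V` is `1 ⊗ v`;
* `one_tmul_mem_smul_top_iff` : `1 ⊗ v ∈ I (B ⊗ V) ↔ v ∈ (comap φ I) V`;
* `levelEquiv φ hφ hsurj ρ I : V ⧸ (comap φ I) V ≃+ V_B ⧸ I V_B`, `levelEquiv_levelAct` (equivariant);
* `hasHopfOrder_level_baseChange` : Hopf orders on the levels of `ρ` above `ker φ` give Hopf orders on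
  all levels of `ρ_B`; `isFlatAt_baseChangeAlong` : the frozen `IsFlatAt` of `ρ_B`;
* `card_residueField_le_baseChange` : the residual input `|k| ≤ |ρ̄_{I_p}|` of the count passes to
  `ρ_B`;
* `det_baseChangeAlong`, `exists_isUnit_det_sub_one_baseChange`, `natCast_mem_maximalIdeal_map`,
  `finite_residueField_of_surjective`.
-/
import Mathlib
import Fermat.Agent.S33.Ord.Count

set_option autoImplicit false
set_option linter.unusedSectionVars false
set_option linter.style.haveILetI false

open scoped TensorProduct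

open GaloisRep Fermat.Agent.S19.Abs Fermat.Agent.S19.Base
open Fermat.Agent.S56.Flat.Etale.Inertial Fermat.Agent.S33.Ord.Count

namespace Fermat.Agent.S33.Ord.BaseChange

local notation "Qbar" => AlgebraicClosure ℚ

/-! ### generic: `B ⊗[T] V` for a surjective `T → B` -/

section Generic

variable {T B V : Type} [CommRing T] [CommRing B] [Algebra T B] [AddCommGroup V] [Module T V]

/-- every element of `B ⊗[T] V` is of the form `1 ⊗ v` -/
theorem exists_one_tmul (hsurj : Function.Surjective (algebraMap T B)) (w : B ⊗[T] V) :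
    ∃ v : V, w = (1 : B) ⊗ₜ[T] v := by
  induction w using TensorProduct.induction_on with
  | zero => exact ⟨0, (TensorProduct.tmul_zero _ _).symm⟩
  | tmul b v =>
    obtain ⟨t, rfl⟩ := hsurj b
    refine ⟨t • v, ?_⟩
    rw [Algebra.algebraMap_eq_smul_one, TensorProduct.smul_tmul]
  | add x y hx hy =>
    obtain ⟨v, rfl⟩ := hx
    obtain ⟨v', rfl⟩ := hy
    exact ⟨v + v', (TensorProduct.tmul_add _ _ _).symm⟩

/-- `1 ⊗ v ∈ I (B ⊗ V) ↔ v ∈ (comap I) V` -/
theorem one_tmul_mem_smul_top_iff {ι : Type} [Fintype ι] [DecidableEq ι]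
    (c : Module.Basis ι T V) (I : Ideal B) (v : V) :
    ((1 : B) ⊗ₜ[T] v : B ⊗[T] V) ∈ I • (⊤ : Submodule B (B ⊗[T] V)) ↔
      v ∈ I.comap (algebraMap T B) • (⊤ : Submodule T V) := by
  have hrepr : ∀ i, (c.baseChange B).repr ((1 : B) ⊗ₜ[T] v) i = algebraMap T B (c.repr v i) := by
    intro i
    rw [Module.Basis.baseChange_repr_tmul, Algebra.algebraMap_eq_smul_one]
  constructor
  · intro h
    refine mem_smul_top_of_repr_mem c _ fun i => ?_
    rw [Ideal.mem_comap, ← hrepr]
    exact repr_mem_of_mem_smul_top (c.baseChange B) I h i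
  · intro h
    refine mem_smul_top_of_repr_mem (c.baseChange B) I fun i => ?_
    rw [hrepr]
    exact Ideal.mem_comap.mp (repr_mem_of_mem_smul_top c _ h i)

/-- `v ↦ [1 ⊗ v]`, as a `T`-linear map to the level `V_B ⧸ I V_B` -/
noncomputable def toLevel (I : Ideal B) :
    V →ₗ[T] ((B ⊗[T] V) ⧸ (I • (⊤ : Submodule B (B ⊗[T] V)))) :=
  ((I • (⊤ : Submodule B (B ⊗[T] V))).mkQ.restrictScalars T).comp (TensorProduct.mk T B V 1)

theorem toLevel_apply (I : Ideal B) (v : V) :
    toLevel (T := T) I v = Submodule.Quotient.mk ((1 : B) ⊗ₜ[T] v) := rfl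

theorem toLevel_surjective (hsurj : Function.Surjective (algebraMap T B)) (I : Ideal B) :
    Function.Surjective (toLevel (T := T) (V := V) I) := by
  intro y
  obtain ⟨w, rfl⟩ := Submodule.Quotient.mk_surjective _ y
  obtain ⟨v, rfl⟩ := exists_one_tmul hsurj w
  exact ⟨v, rfl⟩

theorem ker_toLevel {ι : Type} [Fintype ι] [DecidableEq ι] (c : Module.Basis ι T V)
    (I : Ideal B) :
    I.comap (algebraMap T B) • (⊤ : Submodule T V) = LinearMap.ker (toLevel (T := T) (V := V) I) := by
  ext v
  rw [LinearMap.mem_ker, toLevel_apply, Submodule.Quotient.mk_eq_zero]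
  exact (one_tmul_mem_smul_top_iff c I v).symm

/-- the finite levels of `B ⊗[T] V` are finite levels of `V` -/
noncomputable def levelEquivGen {ι : Type} [Fintype ι] [DecidableEq ι] (c : Module.Basis ι T V)
    (hsurj : Function.Surjective (algebraMap T B)) (I : Ideal B) :
    (V ⧸ (I.comap (algebraMap T B) • (⊤ : Submodule T V))) ≃+
      ((B ⊗[T] V) ⧸ (I • (⊤ : Submodule B (B ⊗[T] V)))) :=
  ((Submodule.quotEquivOfEq _ _ (ker_toLevel c I)).trans
    ((toLevel (T := T) (V := V) I).quotKerEquivOfSurjective (toLevel_surjective hsurj I))).toAddEquiv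

theorem levelEquivGen_mk {ι : Type} [Fintype ι] [DecidableEq ι] (c : Module.Basis ι T V)
    (hsurj : Function.Surjective (algebraMap T B)) (I : Ideal B) (v : V) :
    levelEquivGen c hsurj I (Submodule.Quotient.mk v) =
      Submodule.Quotient.mk ((1 : B) ⊗ₜ[T] v) := rfl

end Generic

variable {T B : Type} [CommRing T] [IsLocalRing T] [CommRing B] [IsLocalRing B]
  (φ : T →+* B) (hφ : IsLocalHom φ) (ρ : GaloisRepAdic T)

/-! ### finite levels of the base change -/

section Level

variable (hsurj : Function.Surjective φ)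

/-- **the finite levels of the base change are finite levels of `ρ`** -/
noncomputable def levelEquiv (I : Ideal B) :
    (ρ.V ⧸ (I.comap φ • (⊤ : Submodule T ρ.V))) ≃+
      ((ρ.baseChangeAlong φ hφ).V ⧸ (I • (⊤ : Submodule B (ρ.baseChangeAlong φ hφ).V))) :=
  letI : Algebra T B := φ.toAlgebra
  levelEquivGen (Module.finBasisOfFinrankEq T ρ.V ρ.finrank_eq) hsurj I

theorem levelEquiv_mk (I : Ideal B) (v : ρ.V) :
    letI : Algebra T B := φ.toAlgebra
    levelEquiv φ hφ ρ hsurj I (Submodule.Quotient.mk v) =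
      (Submodule.Quotient.mk ((1 : B) ⊗ₜ[T] v) :
        (ρ.baseChangeAlong φ hφ).V ⧸ (I • (⊤ : Submodule B (ρ.baseChangeAlong φ hφ).V))) := rfl

/-- the level isomorphism is Galois equivariant -/
theorem levelEquiv_levelAct (I : Ideal B) (σ : GQ)
    (y : ρ.V ⧸ (I.comap φ • (⊤ : Submodule T ρ.V))) :
    levelEquiv φ hφ ρ hsurj I (levelAct ρ (I.comap φ) σ y) =
      levelAct (ρ.baseChangeAlong φ hφ) I σ (levelEquiv φ hφ ρ hsurj I y) := by
  letI : Algebra T B := φ.toAlgebra
  obtain ⟨v, rfl⟩ := Submodule.Quotient.mk_surjective _ y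
  rw [levelAct_mk, levelEquiv_mk, levelEquiv_mk, levelAct_mk]
  rfl

/-- `T ⧸ comap φ I` embeds into `B ⧸ I` -/
theorem finite_quotient_comap (I : Ideal B) [Finite (B ⧸ I)] : Finite (T ⧸ I.comap φ) := by
  refine Finite.of_injective (Ideal.quotientMap I φ le_rfl) ?_
  exact Ideal.quotientMap_injective

include hsurj in
/-- **Hopf orders on the levels of `ρ` above `ker φ` give Hopf orders on all levels of `ρ_B`** -/
theorem hasHopfOrder_level_baseChange {p : ℕ}
    (hlev : ∀ J : Ideal T, RingHom.ker φ ≤ J → Finite (T ⧸ J) → HasHopfOrder p (levelAct ρ J))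
    (I : Ideal B) [Finite (B ⧸ I)] : HasHopfOrder p (levelAct (ρ.baseChangeAlong φ hφ) I) := by
  have hker : RingHom.ker φ ≤ I.comap φ := by
    intro t ht
    rw [Ideal.mem_comap, (RingHom.mem_ker).mp ht]
    exact I.zero_mem
  exact (hlev (I.comap φ) hker (finite_quotient_comap φ I)).of_equiv
    (levelEquiv φ hφ ρ hsurj I) (levelEquiv_levelAct φ hφ ρ hsurj I)

end Level

/-! ### residue fields, `p`, determinants -/

section Misc

include hφ in
theorem natCast_mem_maximalIdeal_map {p : ℕ} (hpT : (p : T) ∈ IsLocalRing.maximalIdeal T) :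
    (p : B) ∈ IsLocalRing.maximalIdeal B := by
  have h1 : φ (p : T) = (p : B) := map_natCast φ p
  rw [← h1]
  haveI := hφ
  exact map_nonunit φ _ hpT

include hφ in
theorem finite_residueField_of_surjective (hsurj : Function.Surjective φ)
    [Finite (IsLocalRing.ResidueField T)] : Finite (IsLocalRing.ResidueField B) := by
  haveI := hφ
  refine Finite.of_surjective (IsLocalRing.ResidueField.map φ) ?_
  intro y
  obtain ⟨b, rfl⟩ := IsLocalRing.residue_surjective y
  obtain ⟨t, rfl⟩ := hsurj b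
  exact ⟨IsLocalRing.residue T t, rfl⟩

theorem det_baseChangeAlong (σ : GQ) :
    LinearMap.det ((ρ.baseChangeAlong φ hφ).ρ σ) = φ (LinearMap.det (ρ.ρ σ)) := by
  letI : Algebra T B := φ.toAlgebra
  exact LinearMap.det_baseChange (ρ.ρ σ)

theorem exists_isUnit_det_sub_one_baseChange (P : ValuationSubring Qbar)
    (h : ∃ σ₀ ∈ P.inertiaSubgroupIn ℚ, IsUnit (LinearMap.det (ρ.ρ σ₀) - 1)) :
    ∃ σ₀ ∈ P.inertiaSubgroupIn ℚ,
      IsUnit (LinearMap.det ((ρ.baseChangeAlong φ hφ).ρ σ₀) - 1) := by
  obtain ⟨σ₀, hσ₀, hu⟩ := h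
  refine ⟨σ₀, hσ₀, ?_⟩
  rw [det_baseChangeAlong, ← map_one φ, ← map_sub]
  exact hu.map φ

end Misc

/-! ### flatness and the residual count for the base change -/

section Flat

variable (hsurj : Function.Surjective φ) {p : ℕ} [Fact p.Prime]

include hsurj in
/-- **`ρ_B` is flat at `p`** if the levels of `ρ` above `ker φ` have Hopf orders -/
theorem isFlatAt_baseChangeAlong [Finite (IsLocalRing.ResidueField T)]
    (hlev : ∀ J : Ideal T, RingHom.ker φ ≤ J → Finite (T ⧸ J) → HasHopfOrder p (levelAct ρ J)) :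
    (ρ.baseChangeAlong φ hφ).IsFlatAt p :=
  isFlatAt_of_isHopfOrder _ p (finite_residueField_of_surjective φ hφ hsurj) fun I hI =>
    haveI := hI
    hasHopfOrder_level_baseChange φ hφ ρ hsurj hlev I

include hφ in
theorem comap_maximalIdeal :
    (IsLocalRing.maximalIdeal B).comap φ = IsLocalRing.maximalIdeal T := by
  haveI := hφ
  ext t
  rw [Ideal.mem_comap, IsLocalRing.mem_maximalIdeal, IsLocalRing.mem_maximalIdeal, mem_nonunits_iff,
    mem_nonunits_iff, isUnit_map_iff]

include hsurj in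
/-- the residual input of the count passes to the base change -/
theorem card_residueField_le_baseChange [Finite (IsLocalRing.ResidueField T)]
    (hk : Nat.card (IsLocalRing.ResidueField T) ≤
      (augInertial p (levelAct ρ (IsLocalRing.maximalIdeal T))).index) :
    Nat.card (IsLocalRing.ResidueField B) ≤
      (augInertial p (levelAct (ρ.baseChangeAlong φ hφ) (IsLocalRing.maximalIdeal B))).index := by
  haveI := hφ
  -- the residue fields have the same cardinality
  have hcard : Nat.card (IsLocalRing.ResidueField B) ≤ Nat.card (IsLocalRing.ResidueField T) := by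
    refine Nat.card_le_card_of_surjective (IsLocalRing.ResidueField.map φ) ?_
    intro y
    obtain ⟨b, rfl⟩ := IsLocalRing.residue_surjective y
    obtain ⟨t, rfl⟩ := hsurj b
    exact ⟨IsLocalRing.residue T t, rfl⟩
  refine hcard.trans (hk.trans (le_of_eq ?_))
  have h1 := index_augInertial_eq (p := p)
    (levelEquiv φ hφ ρ hsurj (IsLocalRing.maximalIdeal B))
    (levelEquiv_levelAct φ hφ ρ hsurj (IsLocalRing.maximalIdeal B))
  rw [← h1]
  -- rewrite `comap φ 𝔪_B = 𝔪_T`
  have h2 := comap_maximalIdeal φ hφ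
  rw [h2]

end Flat

end Fermat.Agent.S33.Ord.BaseChange
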