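/-
S33, block (OLD) = STEP 1, leaf (O6) (helper22): the frozen `IsOrdinaryAt p` quantifies over all
valuation subrings `P` of `ℚ̄` over `p`; it suffices to produce the line at ONE of them.

* `OrdClause ρ P` : the body of the frozen `GaloisRepAdic.IsOrdinaryAt` at the place `P`;
* `OrdClause.smul` : a line for `P` gives the line `ρ(g) L` for `g • P`;
* `isOrdinaryAt_of_ordClause` : `OrdClause ρ (padicPlace p) → ρ.IsOrdinaryAt p`
  (`Places.Dict.exists_smul_padicPlace_eq`: the Galois group acts transitively on the places).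
-/
import Mathlib
import Fermat.Agent.S56.Places.Dict

set_option autoImplicit false
set_option linter.unusedSectionVars false

open scoped Pointwise

namespace Fermat.Agent.S33.Ord.Places

local notation "Qbar" => AlgebraicClosure ℚ
local notation "Γ" => (AlgebraicClosure ℚ ≃ₐ[ℚ] AlgebraicClosure ℚ)

open Fermat.Agent.S55.InertiaConj Fermat.Agent.S56.Places.Dict ExtCitation

variable {A : Type} [CommRing A] [IsLocalRing A] (ρ : GaloisRepAdic A)

/-- the body of the frozen `IsOrdinaryAt` at the place `P` -/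
def OrdClause (P : ValuationSubring Qbar) : Prop :=
  ∃ L : Submodule A ρ.V,
    (∃ b : Module.Basis (Fin 2) A ρ.V, L = Submodule.span A {b 0}) ∧
    (∀ σ ∈ P.decompositionSubgroup ℚ, ∀ v ∈ L, ρ.ρ σ v ∈ L) ∧
    (∀ σ ∈ P.inertiaSubgroupIn ℚ, ∀ v : ρ.V, ρ.ρ σ v - v ∈ L)

theorem isOrdinaryAt_iff_forall_ordClause (p : ℕ) :
    ρ.IsOrdinaryAt p ↔ ∀ P : ValuationSubring Qbar, P.LiesOverPrime p → OrdClause ρ P :=
  Iff.rfl

/-- `ρ g` as a linear automorphism -/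
noncomputable def rhoEquiv (g : Γ) : ρ.V ≃ₗ[A] ρ.V :=
  LinearEquiv.ofLinearMap (ρ.ρ g) (ρ.ρ g⁻¹)
    (by rw [← Module.End.mul_eq_comp, ← map_mul, mul_inv_cancel, map_one]; rfl)
    (by rw [← Module.End.mul_eq_comp, ← map_mul, inv_mul_cancel, map_one]; rfl)

theorem rhoEquiv_apply (g : Γ) (v : ρ.V) : rhoEquiv ρ g v = ρ.ρ g v := rfl

theorem rho_conj_apply (g σ : Γ) (w : ρ.V) :
    ρ.ρ σ (ρ.ρ g w) = ρ.ρ g (ρ.ρ (g⁻¹ * σ * g) w) := by
  rw [← Module.End.mul_apply, ← Module.End.mul_apply, ← map_mul, ← map_mul]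
  congr 2
  group

/-- **(O6)**: the ordinary line at `P` transported to `g • P` -/
theorem OrdClause.smul {P : ValuationSubring Qbar} (h : OrdClause ρ P) (g : Γ) :
    OrdClause ρ (g • P) := by
  obtain ⟨L, ⟨b, hL⟩, hD, hI⟩ := h
  refine ⟨L.map (rhoEquiv ρ g).toLinearMap, ⟨b.map (rhoEquiv ρ g), ?_⟩, ?_, ?_⟩
  · rw [hL, Submodule.map_span, Set.image_singleton, Module.Basis.map_apply]
    rfl
  · intro σ hσ v hv
    obtain ⟨w, hw, rfl⟩ := hv
    have h1 := conj_mem_decompositionSubgroup (g • P) g⁻¹ σ hσ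
    rw [inv_smul_smul, inv_inv] at h1
    refine ⟨ρ.ρ (g⁻¹ * σ * g) w, hD _ h1 w hw, ?_⟩
    show ρ.ρ g (ρ.ρ (g⁻¹ * σ * g) w) = ρ.ρ σ (ρ.ρ g w)
    exact (rho_conj_apply ρ g σ w).symm
  · intro σ hσ v
    have h1 := conj_mem_inertiaSubgroupIn (g • P) g⁻¹ σ hσ
    rw [inv_smul_smul, inv_inv] at h1
    refine ⟨ρ.ρ (g⁻¹ * σ * g) (ρ.ρ g⁻¹ v) - ρ.ρ g⁻¹ v, hI _ h1 _, ?_⟩
    show ρ.ρ g (ρ.ρ (g⁻¹ * σ * g) (ρ.ρ g⁻¹ v) - ρ.ρ g⁻¹ v) = ρ.ρ σ v - v
    have h2 : ρ.ρ g (ρ.ρ g⁻¹ v) = v := by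
      rw [← Module.End.mul_apply, ← map_mul, mul_inv_cancel, map_one, Module.End.one_apply]
    rw [map_sub, ← rho_conj_apply, h2]

/-- **(O6)**: the frozen `IsOrdinaryAt p` from the clause at the place `padicPlace p`. -/
theorem isOrdinaryAt_of_ordClause (p : ℕ) [Fact p.Prime] (h : OrdClause ρ (padicPlace p)) :
    ρ.IsOrdinaryAt p := by
  intro P hP
  obtain ⟨g, rfl⟩ := exists_smul_padicPlace_eq p hP
  exact h.smul ρ g

/-- the same at `primeLocalPlace q` -/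
theorem isOrdinaryAt_of_ordClause_primeLocalPlace (q : Nat.Primes)
    (h : OrdClause ρ (primeLocalPlace q)) : ρ.IsOrdinaryAt (q : ℕ) :=
  isOrdinaryAt_of_ordClause ρ (q : ℕ) h

end Fermat.Agent.S33.Ord.Places
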