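/-
S33, block (OLD) = STEP 1 "flat + residually ordinary ⇒ ordinary" (helper22): THEOREM ORD modulo
the count.

`A` a Noetherian local ring with finite residue field, `ρ : GaloisRepAdic A`, `P` a place of `ℚ̄`,
`J = augSub ρ P` the `A`-submodule of `ρ.V` generated by the `σ v − v`, `σ ∈ I_P`
(`S56/Flat/PThree/OrdLift`).

* `CountHyp ρ P` : the count (O4), `|A ⧸ I| ≤ |V ⧸ (I V + J)|` for every ideal `I` of finite
  colength (the output of `S33/Ord/Count`, helper6, for a flat `ρ` which is residually ordinary);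
* `ordClause_of_countHyp` : count + some inertia element moving a vector outside `𝔪 V` ⇒ `J` is
  spanned by the first vector of a basis, i.e. the frozen ordinary clause holds at `P`, with `L = J`
  (`D_P`-stable since `I_P` is normal in `D_P`; `I_P` acts trivially on `V ⧸ J` by definition);
* `isOrdinaryAt_of_countHyp` : the frozen `IsOrdinaryAt` from the count at `primeLocalPlace q`,
  the ramification hypothesis in the three forms `∃ v, ρσ v − v ∉ 𝔪 V` / `IsUnit (det ρσ₀ − 1)` /
  `ρ.residual.ρ σ ≠ 1`.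
-/
import Mathlib
import Fermat.Agent.S56.Flat.PThree.OrdLift
import Fermat.Agent.S33.Ord.Algebra
import Fermat.Agent.S33.Ord.Places

set_option autoImplicit false
set_option linter.unusedSectionVars false
set_option linter.style.haveILetI false

open scoped TensorProduct

namespace Fermat.Agent.S33.Ord.Main

local notation "Qbar" => AlgebraicClosure ℚ
local notation "Γ" => (AlgebraicClosure ℚ ≃ₐ[ℚ] AlgebraicClosure ℚ)

open IsLocalRing ExtCitation Fermat.Agent.S56.Flat.PThree.OrdLift Fermat.Agent.S33.Ord.Algebra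
  Fermat.Agent.S33.Ord.Places

variable {A : Type} [CommRing A] [IsLocalRing A] (ρ : GaloisRepAdic A)
  (P : ValuationSubring Qbar)

/-- **the count (O4)**: the inertia coinvariants of every finite level are at least as large as the
coefficient ring -/
def CountHyp : Prop :=
  ∀ I : Ideal A, Finite (A ⧸ I) →
    Nat.card (A ⧸ I) ≤ Nat.card (ρ.V ⧸ (I • (⊤ : Submodule A ρ.V) ⊔ augSub ρ P))

/-- the three forms of "the inertia group at `P` acts non-trivially on `ρ̄`" -/
def RamHyp : Prop :=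
  ∃ σ ∈ P.inertiaSubgroupIn ℚ, ∃ v : ρ.V,
    ρ.ρ σ v - v ∉ maximalIdeal A • (⊤ : Submodule A ρ.V)

theorem ramHyp_of_isUnit_det_sub_one
    (h : ∃ σ₀ ∈ P.inertiaSubgroupIn ℚ, IsUnit (LinearMap.det (ρ.ρ σ₀) - 1)) : RamHyp ρ P := by
  obtain ⟨σ₀, hσ₀, hu⟩ := h
  obtain ⟨v, hv⟩ := exists_not_mem_of_isUnit_det_sub_one
    (Module.finBasisOfFinrankEq A ρ.V ρ.finrank_eq) (ρ.ρ σ₀) hu
  exact ⟨σ₀, hσ₀, v, hv⟩

/-- elements of `𝔪 V` die in `k ⊗ V` -/
theorem tmul_eq_zero_of_mem {x : ρ.V} (hx : x ∈ maximalIdeal A • (⊤ : Submodule A ρ.V))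
    (c : ResidueField A) : c ⊗ₜ[A] x = (0 : ResidueField A ⊗[A] ρ.V) := by
  refine Submodule.smul_induction_on
    (p := fun x => c ⊗ₜ[A] x = (0 : ResidueField A ⊗[A] ρ.V)) hx ?_ ?_
  · intro a ha w _
    rw [TensorProduct.tmul_smul, TensorProduct.smul_tmul', Algebra.smul_def,
      IsLocalRing.ResidueField.algebraMap_eq, (IsLocalRing.residue_eq_zero_iff a).mpr ha,
      zero_mul, TensorProduct.zero_tmul]
  · intro x y hx hy
    rw [TensorProduct.tmul_add, hx, hy, add_zero]

theorem ramHyp_of_residual_ne_one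
    (h : ∃ σ ∈ P.inertiaSubgroupIn ℚ, ρ.residual.ρ σ ≠ 1) : RamHyp ρ P := by
  obtain ⟨σ, hσ, hne⟩ := h
  refine ⟨σ, hσ, ?_⟩
  by_contra hall
  push Not at hall
  apply hne
  refine LinearMap.ext fun w => ?_
  show (ρ.ρ σ).baseChange (ResidueField A) w = w
  induction w using TensorProduct.induction_on with
  | zero => rw [map_zero]
  | tmul c v =>
    rw [LinearMap.baseChange_tmul, ← sub_eq_zero, ← TensorProduct.tmul_sub]
    exact tmul_eq_zero_of_mem ρ (hall v) c
  | add x y hx hy => rw [map_add, hx, hy]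

variable [IsNoetherianRing A] [Finite (ResidueField A)]

theorem finite_quotient_maximalIdeal_pow (n : ℕ) : Finite (A ⧸ maximalIdeal A ^ n) := by
  haveI : Finite (A ⧸ maximalIdeal A) := inferInstanceAs (Finite (ResidueField A))
  exact Ideal.finite_quotient_pow (IsNoetherian.noetherian (maximalIdeal A)) n

/-- **THEOREM ORD at one place, modulo the count**: `augSub ρ P` is the ordinary line. -/
theorem ordClause_of_countHyp (hcount : CountHyp ρ P) (hram : RamHyp ρ P) : OrdClause ρ P := by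
  obtain ⟨σ₀, hσ₀, v₀, hv₀⟩ := hram
  obtain ⟨b, hb⟩ := exists_basis_of_not_mem (Module.finBasisOfFinrankEq A ρ.V ρ.finrank_eq) hv₀
  have hb0 : b 0 ∈ augSub ρ P := by
    rw [hb]
    exact sub_mem_augSub ρ P hσ₀ v₀
  have hL : augSub ρ P = Submodule.span A {b 0} :=
    eq_span_of_forall_card_le b (augSub ρ P) hb0 fun n =>
      ⟨finite_quotient_maximalIdeal_pow n, hcount (maximalIdeal A ^ n)
        (finite_quotient_maximalIdeal_pow n)⟩
  exact ⟨augSub ρ P, ⟨b, hL⟩, fun _ hσ _ hv => map_mem_augSub ρ P hσ hv,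
    fun _ hσ v => sub_mem_augSub ρ P hσ v⟩

/-- **THEOREM ORD, modulo the count** -/
theorem isOrdinaryAt_of_countHyp (q : Nat.Primes) (hcount : CountHyp ρ (primeLocalPlace q))
    (hram : RamHyp ρ (primeLocalPlace q)) : ρ.IsOrdinaryAt (q : ℕ) :=
  isOrdinaryAt_of_ordClause_primeLocalPlace ρ q (ordClause_of_countHyp ρ _ hcount hram)

end Fermat.Agent.S33.Ord.Main
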