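/-
S33, block (OLD) = STEP 1, consumer form over a quotient ring (helper22) — the FALLBACK of
`Ord/Levelwise` (helper6), in the shape consumed by `Asm/Family.isOrdinaryAt_of_old_new_family`.

`φ : T →+* B` a surjective local homomorphism of local rings (`B = T ⧸ 𝔞`), `T` Noetherian with finite
residue field, `p` odd, `(p : T) ∈ 𝔪`, `ρ : GaloisRepAdic T` residually ordinary at `p`, with an
inertia element at `p` with `det − 1` a unit, and such that every finite level `V ⧸ J V` with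
`ker φ ≤ J` has a Hopf order.  Then `ρ.baseChangeAlong φ hφ` is ordinary at `p`.

(`IsFlatAt` of the base change from the levels of `ρ` (`Ord/BaseChange`), the residual count
transported along `V_B ⧸ 𝔪_B V_B ≃ V ⧸ 𝔪 V`, helper6's count `Ord/Count` + `Ord/CountAug`, and
`Ord/Main`.)
-/
import Mathlib
import Fermat.Agent.S33.Ord.BaseChange
import Fermat.Agent.S33.Ord.CountAug
import Fermat.Agent.S33.Ord.Main

set_option autoImplicit false
set_option linter.unusedSectionVars false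
set_option linter.style.haveILetI false

open GaloisRep Fermat.Agent.S19.Abs Fermat.Agent.S19.Base
open Fermat.Agent.S56.Flat.Etale.Inertial Fermat.Agent.S56.Places.Dict ExtCitation
open Fermat.Agent.S33.Ord.Count Fermat.Agent.S33.Ord.CountAug Fermat.Agent.S33.Ord.BaseChange
  Fermat.Agent.S33.Ord.Main

namespace Fermat.Agent.S33.Ord.Old

local notation "Qbar" => AlgebraicClosure ℚ

variable {T B : Type} [CommRing T] [IsLocalRing T] [IsNoetherianRing T] [CommRing B]
  [IsLocalRing B] (φ : T →+* B) (hφ : IsLocalHom φ) (hsurj : Function.Surjective φ)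
  (ρ : GaloisRepAdic T)

include hsurj in
/-- **(OLD), base-change form**: the base change of `ρ` to a quotient `B` of `T` all of whose finite
levels (as levels of `ρ`) carry Hopf orders is ordinary. -/
theorem isOrdinaryAt_baseChangeAlong_of_levels (q : Nat.Primes) (hq2 : (q : ℕ) ≠ 2)
    (hqT : ((q : ℕ) : T) ∈ IsLocalRing.maximalIdeal T) [Finite (IsLocalRing.ResidueField T)]
    (hlev : ∀ J : Ideal T, RingHom.ker φ ≤ J → Finite (T ⧸ J) →
      HasHopfOrder (q : ℕ) (levelAct ρ J))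
    (hres : (GaloisRepAdic.ofResidualGaloisRep ρ.residual).IsOrdinaryAt (q : ℕ))
    (hσ₀ : ∃ σ₀ ∈ (primeLocalPlace q).inertiaSubgroupIn ℚ,
      IsUnit (LinearMap.det (ρ.ρ σ₀) - 1)) :
    (ρ.baseChangeAlong φ hφ).IsOrdinaryAt (q : ℕ) := by
  haveI : IsNoetherianRing B := isNoetherianRing_of_surjective T B φ hsurj
  haveI : Finite (IsLocalRing.ResidueField B) := finite_residueField_of_surjective φ hφ hsurj
  have hqB : ((q : ℕ) : B) ∈ IsLocalRing.maximalIdeal B := natCast_mem_maximalIdeal_map φ hφ hqT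
  have hflat : (ρ.baseChangeAlong φ hφ).IsFlatAt (q : ℕ) :=
    isFlatAt_baseChangeAlong φ hφ ρ hsurj hlev
  -- the residual input of the count
  obtain ⟨L, ⟨b, rfl⟩, -, hI⟩ := hres (primeLocalPlace q) (liesOverPrime_primeLocalPlace q)
  have hk := card_residueField_le ρ q inferInstance b hI
  have hkB := card_residueField_le_baseChange φ hφ ρ hsurj hk
  -- the count over `B`
  have hcount : CountHyp (ρ.baseChangeAlong φ hφ) (primeLocalPlace q) := by
    intro I hI
    rw [sup_comm]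
    exact (card_quot_le_index_augInertial _ hq2 hqB hflat hkB I).trans
      (index_augInertial_le_card_quot _ q I)
  exact isOrdinaryAt_of_countHyp _ q hcount
    (ramHyp_of_isUnit_det_sub_one _ _ (exists_isUnit_det_sub_one_baseChange φ hφ ρ _ hσ₀))

include hsurj in
/-- the same with `p : ℕ` -/
theorem isOrdinaryAt_baseChangeAlong_of_levels' {p : ℕ} (hp : p.Prime) (hp2 : p ≠ 2)
    (hpT : (p : T) ∈ IsLocalRing.maximalIdeal T) [Finite (IsLocalRing.ResidueField T)]
    (hlev : ∀ J : Ideal T, RingHom.ker φ ≤ J → Finite (T ⧸ J) → HasHopfOrder p (levelAct ρ J))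
    (hres : (GaloisRepAdic.ofResidualGaloisRep ρ.residual).IsOrdinaryAt p)
    (hσ₀ : ∃ σ₀ ∈ (primeLocalPlace ⟨p, hp⟩).inertiaSubgroupIn ℚ,
      IsUnit (LinearMap.det (ρ.ρ σ₀) - 1)) :
    (ρ.baseChangeAlong φ hφ).IsOrdinaryAt p :=
  isOrdinaryAt_baseChangeAlong_of_levels φ hφ hsurj ρ ⟨p, hp⟩ hp2 hpT hlev hres hσ₀

/-- **(OLD) for the quotient by an ideal**, in the shape of `Asm/Family.old_of_quotient`. -/
theorem isOrdinaryAt_quotient_of_levels {p : ℕ} (hp : p.Prime) (hp2 : p ≠ 2)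
    (hpT : (p : T) ∈ IsLocalRing.maximalIdeal T) [Finite (IsLocalRing.ResidueField T)]
    (𝔞 : Ideal T) (h𝔞 : 𝔞 ≠ ⊤)
    (hlev : ∀ J : Ideal T, 𝔞 ≤ J → Finite (T ⧸ J) → HasHopfOrder p (levelAct ρ J))
    (hres : (GaloisRepAdic.ofResidualGaloisRep ρ.residual).IsOrdinaryAt p)
    (hσ₀ : ∃ σ₀ ∈ (primeLocalPlace ⟨p, hp⟩).inertiaSubgroupIn ℚ,
      IsUnit (LinearMap.det (ρ.ρ σ₀) - 1)) :
    haveI : Nontrivial (T ⧸ 𝔞) := Ideal.Quotient.nontrivial_iff.mpr h𝔞
    haveI : IsLocalRing (T ⧸ 𝔞) :=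
      IsLocalRing.of_surjective' (Ideal.Quotient.mk 𝔞) Ideal.Quotient.mk_surjective
    ∃ hφ : IsLocalHom (Ideal.Quotient.mk 𝔞),
      (ρ.baseChangeAlong (Ideal.Quotient.mk 𝔞) hφ).IsOrdinaryAt p := by
  haveI : Nontrivial (T ⧸ 𝔞) := Ideal.Quotient.nontrivial_iff.mpr h𝔞
  haveI : IsLocalRing (T ⧸ 𝔞) :=
    IsLocalRing.of_surjective' (Ideal.Quotient.mk 𝔞) Ideal.Quotient.mk_surjective
  have hφ : IsLocalHom (Ideal.Quotient.mk 𝔞) :=
    IsLocalHom.of_surjective (Ideal.Quotient.mk 𝔞) Ideal.Quotient.mk_surjective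
  refine ⟨hφ, isOrdinaryAt_baseChangeAlong_of_levels' (Ideal.Quotient.mk 𝔞) hφ
    Ideal.Quotient.mk_surjective ρ hp hp2 hpT (fun J hJ => hlev J ?_) hres hσ₀⟩
  rwa [Ideal.mk_ker] at hJ

end Fermat.Agent.S33.Ord.Old
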