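/-
S33, block (OLD) = STEP 1 (helper22 + helper6): **THEOREM ORD — "flat + residually ordinary ⇒
ordinary" over an arbitrary Noetherian local ring.**

`A` a Noetherian local ring, `p` an odd prime with `(p : A) ∈ 𝔪`, `ρ : GaloisRepAdic A` flat at `p`
(frozen `IsFlatAt`: every finite level `V ⧸ I V` has a Hopf model), residually ordinary at `p`
(frozen `IsOrdinaryAt` of `ρ.residual`) and with inertia at `p` acting non-trivially on `ρ̄`.  Then
`ρ` is ordinary at `p` (frozen `IsOrdinaryAt`), with line `L = augSub ρ P`, the `A`-span of the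
`σ v − v`, `σ ∈ I_P`.

Assembly of helper6's count `Ord/CountAug.card_quot_le_card_quot_augSub`
(`|A ⧸ I| ≤ |V ⧸ (augSub + I V)|`, via `Etale/Intrinsic`: inertia coinvariants are exact on flat
modules) with `Ord/Main.isOrdinaryAt_of_countHyp` (counts at all `𝔪ⁿ` + Krull ⇒ `augSub = A·b₀`).
-/
import Mathlib
import Fermat.Agent.S33.Ord.CountAug
import Fermat.Agent.S33.Ord.Main

set_option autoImplicit false
set_option linter.unusedSectionVars false
set_option linter.style.haveILetI false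

namespace Fermat.Agent.S33.Ord.Theorem

local notation "Qbar" => AlgebraicClosure ℚ

open IsLocalRing ExtCitation Fermat.Agent.S56.Flat.PThree.OrdLift Fermat.Agent.S33.Ord.Main
  Fermat.Agent.S33.Ord.CountAug Fermat.Agent.S56.Places.Dict

variable {A : Type} [CommRing A] [IsLocalRing A] [IsNoetherianRing A] (ρ : GaloisRepAdic A)

/-- the count (O4) for a flat, residually ordinary `ρ` -/
theorem countHyp_of_isFlatAt (q : Nat.Primes) (hq2 : (q : ℕ) ≠ 2)
    (hqA : ((q : ℕ) : A) ∈ maximalIdeal A) (hflat : ρ.IsFlatAt (q : ℕ))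
    (hres : (GaloisRepAdic.ofResidualGaloisRep ρ.residual).IsOrdinaryAt (q : ℕ)) :
    CountHyp ρ (primeLocalPlace q) := by
  intro I hI
  rw [sup_comm]
  exact card_quot_le_card_quot_augSub ρ q hq2 hqA hflat hres I

/-- **THEOREM ORD**, `RamHyp` form -/
theorem isOrdinaryAt_of_isFlatAt_of_ramHyp (q : Nat.Primes) (hq2 : (q : ℕ) ≠ 2)
    (hqA : ((q : ℕ) : A) ∈ maximalIdeal A) (hflat : ρ.IsFlatAt (q : ℕ))
    (hres : (GaloisRepAdic.ofResidualGaloisRep ρ.residual).IsOrdinaryAt (q : ℕ))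
    (hram : RamHyp ρ (primeLocalPlace q)) : ρ.IsOrdinaryAt (q : ℕ) :=
  haveI : Finite (ResidueField A) := hflat.1
  isOrdinaryAt_of_countHyp ρ q (countHyp_of_isFlatAt ρ q hq2 hqA hflat hres) hram

/-- **THEOREM ORD**: flat + residually ordinary + some inertia element with `det − 1` a unit ⇒
ordinary. -/
theorem isOrdinaryAt_of_isFlatAt {p : ℕ} (hp : p.Prime) (hp2 : p ≠ 2)
    (hpA : (p : A) ∈ maximalIdeal A) (hflat : ρ.IsFlatAt p)
    (hres : (GaloisRepAdic.ofResidualGaloisRep ρ.residual).IsOrdinaryAt p)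
    (hσ₀ : ∃ σ₀ ∈ (primeLocalPlace ⟨p, hp⟩).inertiaSubgroupIn ℚ,
      IsUnit (LinearMap.det (ρ.ρ σ₀) - 1)) : ρ.IsOrdinaryAt p :=
  isOrdinaryAt_of_isFlatAt_of_ramHyp ρ ⟨p, hp⟩ hp2 hpA hflat hres
    (ramHyp_of_isUnit_det_sub_one ρ _ hσ₀)

/-- **THEOREM ORD**, with the ramification hypothesis on the residual representation -/
theorem isOrdinaryAt_of_isFlatAt' {p : ℕ} (hp : p.Prime) (hp2 : p ≠ 2)
    (hpA : (p : A) ∈ maximalIdeal A) (hflat : ρ.IsFlatAt p)
    (hres : (GaloisRepAdic.ofResidualGaloisRep ρ.residual).IsOrdinaryAt p)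
    (hram : ∃ σ ∈ (primeLocalPlace ⟨p, hp⟩).inertiaSubgroupIn ℚ, ρ.residual.ρ σ ≠ 1) :
    ρ.IsOrdinaryAt p :=
  isOrdinaryAt_of_isFlatAt_of_ramHyp ρ ⟨p, hp⟩ hp2 hpA hflat hres
    (ramHyp_of_residual_ne_one ρ _ hram)

end Fermat.Agent.S33.Ord.Theorem
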